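/-
T1B / G2 G-BLR (helper83): **Boston–Lenstra–Ribet modulo `p`, abstract form.**

`R` a commutative ring (the `p`-adic Hecke algebra), `Y` a finite `R`-module (`T_p J / p = J[p]`) with an
`R`-linear action `ρY` of a group `G`, `π : R → D` a surjection onto a field (an eigensystem mod `p`) whose
kernel `I` is in the support of `Y` in the strong sense `I Y ≠ Y` (by `Socle`: automatic if `Y = M / p M`,
`M` faithful and finitely generated, `p ∈ I`).  `(V, ρV)` a two-dimensional `D`-representation of `G` whose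
image spans `End_D V`, with the Eichler–Shimura data
  `Φ φ ℓ t → t = φ + ℓ φ⁻¹ on Y`,  `Φ φ ℓ t → charpoly (ρV φ) = X² − π(t) X + ℓ`
for a family of "Frobenius elements" `φ` which is dense (up to powers) in the finite quotient through which
`ρV` and `ρY` factor.  Then there is an injective additive map `Ψ : V → Y`, `G`-equivariant, with
`r • Ψ v = Ψ (π r • v)`: a copy of `V` inside the `I`-torsion of `Y`.
-/
import Mathlib
import Fermat.Agent.Flat83.BLRField
import Fermat.Agent.Flat83.EigenCH
import Fermat.Agent.T1B.GBLR83.Socle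

set_option autoImplicit false
set_option linter.unusedSectionVars false
set_option linter.style.haveILetI false

open Polynomial

noncomputable section

namespace Fermat.Agent.T1B.GBLR83.ModP

open Fermat.Agent.ES.ALG31.Lucas15

variable {R : Type*} [CommRing R] {Y : Type*} [AddCommGroup Y] [Module R Y]
  {G : Type*} [Group G] {D : Type*} [Field D]

section Torsion

variable (π : R →+* D) (hπ : Function.Surjective π)

/-- the `D`-module structure on the `ker π`-torsion of `Y`. -/
@[reducible] def torsModule :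
    Module D (Submodule.torsionBySet R Y (RingHom.ker π : Set R)) :=
  Module.compHom _ ((RingHom.quotientKerEquivOfSurjective hπ).symm :
    D →+* R ⧸ RingHom.ker π)

theorem torsModule_smul (r : R) (x : Submodule.torsionBySet R Y (RingHom.ker π : Set R)) :
    letI := torsModule (Y := Y) π hπ
    π r • x = r • x := by
  letI := torsModule (Y := Y) π hπ
  show ((RingHom.quotientKerEquivOfSurjective hπ).symm (π r)) • x = r • x
  have h : (RingHom.quotientKerEquivOfSurjective hπ).symm (π r) =
      Ideal.Quotient.mk (RingHom.ker π) r := by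
    apply (RingHom.quotientKerEquivOfSurjective hπ).injective
    rw [RingEquiv.apply_symm_apply]
    rfl
  rw [h]
  rfl

end Torsion

section Main

variable [Finite Y] (ρY : G →* Module.End R Y)
  (π : R →+* D) (hπ : Function.Surjective π)
  {V : Type*} [AddCommGroup V] [Module D V] [Module.Finite D V]
  (ρV : G →* Module.End D V)

include hπ in
/-- **Boston–Lenstra–Ribet modulo `p`.** -/
theorem exists_embedding
    (hne : (RingHom.ker π) • (⊤ : Submodule R Y) ≠ ⊤)
    (hV : Module.finrank D V = 2) (htwo : (2 : D) ≠ 0)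
    (hspan : Submodule.span D (Set.range ρV) = ⊤)
    (Φ : G → ℕ → R → Prop)
    (hΦY : ∀ φ ℓ t, Φ φ ℓ t → ∀ y : Y, t • y = ρY φ y + (ℓ : R) • ρY φ⁻¹ y)
    (hΦV : ∀ φ ℓ t, Φ φ ℓ t → (ρV φ).charpoly = X ^ 2 - C (π t) * X + C (ℓ : D))
    (hdense : ∀ g : G, ∃ φ ℓ t, ∃ j : ℕ, Φ φ ℓ t ∧ ρV (g⁻¹ * φ ^ j) = 1 ∧ ρY (g⁻¹ * φ ^ j) = 1) :
    ∃ Ψ : V →+ Y, Function.Injective Ψ ∧ (∀ (g : G) (v : V), Ψ (ρV g v) = ρY g (Ψ v)) ∧
      ∀ (r : R) (v : V), r • Ψ v = Ψ (π r • v) := by
  classical
  letI : Module D (Submodule.torsionBySet R Y (RingHom.ker π : Set R)) := torsModule π hπ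
  have hsm : ∀ (r : R) (x : Submodule.torsionBySet R Y (RingHom.ker π : Set R)),
      π r • x = r • x := torsModule_smul π hπ
  -- the Galois action on the torsion
  have hstab : ∀ (g : G) (x : Y), x ∈ Submodule.torsionBySet R Y (RingHom.ker π : Set R) →
      ρY g x ∈ Submodule.torsionBySet R Y (RingHom.ker π : Set R) := by
    intro g x hx
    rw [Submodule.mem_torsionBySet_iff] at hx ⊢
    intro a
    rw [← map_smul, hx a, map_zero]
  let ρX : G →* Module.End D (Submodule.torsionBySet R Y (RingHom.ker π : Set R)) :=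
    { toFun := fun g =>
        { toFun := fun x => ⟨ρY g x, hstab g x x.2⟩
          map_add' := fun x y => Subtype.ext (by simp)
          map_smul' := fun d x => by
            obtain ⟨r, rfl⟩ := hπ d
            apply Subtype.ext
            rw [RingHom.id_apply, hsm, hsm]
            simp }
      map_one' := by
        refine LinearMap.ext fun x => Subtype.ext ?_
        simp
      map_mul' := fun g h => by
        refine LinearMap.ext fun x => Subtype.ext ?_
        simp }
  have hρX : ∀ (g : G) (x : Submodule.torsionBySet R Y (RingHom.ker π : Set R)),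
      ((ρX g x : Submodule.torsionBySet R Y (RingHom.ker π : Set R)) : Y) = ρY g (x : Y) :=
    fun g x => rfl
  -- the torsion is nonzero
  haveI : Nontrivial (Submodule.torsionBySet R Y (RingHom.ker π : Set R)) := by
    obtain ⟨y, hy0, hy⟩ :=
      Fermat.Agent.T1B.GBLR83.Socle.exists_ne_zero_forall_smul_eq_zero (RingHom.ker π) hne
    have hyX : y ∈ Submodule.torsionBySet R Y (RingHom.ker π : Set R) := by
      rw [Submodule.mem_torsionBySet_iff]
      intro a
      exact hy a a.2
    exact ⟨⟨⟨y, hyX⟩, 0, fun h => hy0 (congrArg Subtype.val h)⟩⟩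
  haveI : Module.Finite D (Submodule.torsionBySet R Y (RingHom.ker π : Set R)) :=
    Module.Finite.of_finite
  -- the Cayley–Hamilton relation
  have hrel : ∀ g, ρX g + LinearMap.det (ρV g) • ρX g⁻¹ =
      LinearMap.trace D V (ρV g) •
        (1 : Module.End D (Submodule.torsionBySet R Y (RingHom.ker π : Set R))) := by
    intro g
    obtain ⟨φ, ℓ, t, j, hΦ, h1, h2⟩ := hdense g
    have hVg : ρV g = ρV φ ^ j := by
      have h3 : ρV (φ ^ j) = ρV g * ρV (g⁻¹ * φ ^ j) := by rw [← map_mul, mul_inv_cancel_left]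
      rw [h1, mul_one, map_pow] at h3
      exact h3.symm
    have hYg : ρY g = ρY φ ^ j := by
      have h3 : ρY (φ ^ j) = ρY g * ρY (g⁻¹ * φ ^ j) := by rw [← map_mul, mul_inv_cancel_left]
      rw [h2, mul_one, map_pow] at h3
      exact h3.symm
    have hYg' : ρY g⁻¹ = ρY φ⁻¹ ^ j := by
      have h3 : ρY g⁻¹ = ρY (g⁻¹ * φ ^ j) * ρY ((φ ^ j)⁻¹) := by
        rw [← map_mul, mul_inv_cancel_right]
      rw [h2, one_mul, ← inv_pow, map_pow] at h3
      exact h3
    obtain ⟨htr, hdet⟩ := trace_det_of_charpoly hV (ρV φ) (hΦV φ ℓ t hΦ)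
    have e_tr : LinearMap.trace D V (ρV g) = π (lucasV t (ℓ : R) j) := by
      rw [hVg, trace_pow_of_charpoly hV _ (hΦV φ ℓ t hΦ) j, map_lucasV, map_natCast]
    have e_det : LinearMap.det (ρV g) = π ((ℓ : R) ^ j) := by
      rw [hVg, map_pow, hdet, map_pow, map_natCast]
    have hFF' : ρY φ * ρY φ⁻¹ = 1 := by rw [← map_mul, mul_inv_cancel, map_one]
    have hF'F : ρY φ⁻¹ * ρY φ = 1 := by rw [← map_mul, inv_mul_cancel, map_one]
    have ht : Module.toModuleEnd R (S := R) Y t = ρY φ + (ℓ : R) • ρY φ⁻¹ :=
      LinearMap.ext (hΦY φ ℓ t hΦ)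
    have e1 := Fermat.Agent.Flat83.EigenCH.map_lucas (Module.toModuleEnd R (S := R) Y)
      hFF' hF'F t ℓ ht j
    refine LinearMap.ext fun x => Subtype.ext ?_
    rw [e_tr, e_det, LinearMap.add_apply, LinearMap.smul_apply, LinearMap.smul_apply,
      Module.End.one_apply, hsm, hsm, Submodule.coe_add, Submodule.coe_smul, Submodule.coe_smul,
      hρX, hρX, hYg, hYg']
    have e2 := congrArg (fun F : Module.End R Y => F (x : Y)) e1
    simp only [LinearMap.add_apply, LinearMap.smul_apply] at e2
    rw [← e2]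
    rfl
  obtain ⟨f, hinj, heq⟩ := Fermat.Agent.Flat83.BLRField.exists_injective_equivariant
    ρV ρX hrel hV htwo hspan
  refine ⟨(Submodule.subtype _).toAddMonoidHom.comp f.toAddMonoidHom, ?_, ?_, ?_⟩
  · intro v w hvw
    apply hinj
    exact Subtype.ext hvw
  · intro g v
    show ((f (ρV g v) : Submodule.torsionBySet R Y (RingHom.ker π : Set R)) : Y) = _
    rw [heq, hρX]
    rfl
  · intro r v
    show r • ((f v : Submodule.torsionBySet R Y (RingHom.ker π : Set R)) : Y) =
      ((f (π r • v) : Submodule.torsionBySet R Y (RingHom.ker π : Set R)) : Y)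
    rw [map_smul, hsm, Submodule.coe_smul]

end Main

end Fermat.Agent.T1B.GBLR83.ModP
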