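/-
T1B / G2 G-BLR (helper83): **Boston–Lenstra–Ribet modulo `p` for `J₀(N)`**, generic in the Hecke algebra.

`B` a commutative `ℤ_[p]`-algebra acting faithfully on the Tate module `T_p J₀(N)` through
`ev : B →ₐ End (TJ p N)`, commuting with Galois, with elements `tB ℓ` acting as the Hecke
correspondences `T_ℓ` (`ℓ ∉ S`, `ℓ ∤ N`).  `π : B → D` a surjection onto a field of characteristic `p`,
`(V, ρV)` a two-dimensional representation of `G_ℚ` over `D` factoring through a number field, whose image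
spans `End_D V`, with `charpoly (ρV Frob_ℓ) = X² − π(tB ℓ) X + ℓ`.  Then `V` embeds into `J₀(N)(ℚ̄)[p]`,
`G_ℚ`- and `B`-equivariantly (`B` acts on `J[p] ⊇ T_p J / p` through `proj 1`).

Instances: `ev = ES/K/HeckeTate26.evJ` (anemic, `Anemic.lean`); the full algebra with `U_q` (Stage 2).
-/
import Mathlib
import Fermat.Agent.ES.J.TateJZero13
import Fermat.Agent.ES.J.S30Final8
import Fermat.Agent.ES.GAL.ChebQbar23
import Fermat.Agent.T1B.GBLR83.ModP

set_option autoImplicit false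
set_option linter.unusedSectionVars false
set_option linter.style.haveILetI false
set_option synthInstance.maxHeartbeats 400000
set_option maxHeartbeats 1000000

open Polynomial AlgebraicCurve ModularCurve

noncomputable section

namespace Fermat.Agent.T1B.GBLR83.Tate

open Fermat.Agent.ES.J.TateJZero13 Fermat.Agent.ES.J.TateModule13

local notation "Qb" => AlgebraicClosure ℚ
local notation "GQ" => (AlgebraicClosure ℚ ≃ₐ[ℚ] AlgebraicClosure ℚ)

variable {p : ℕ} [hp : Fact p.Prime] {N : ℕ} [NeZero N]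
  {B : Type*} [CommRing B] [Algebra ℤ_[p] B]
  {D : Type*} [Field D]
  {V : Type*} [AddCommGroup V] [Module D V] [Module.Finite D V]

/-- **the finite Hecke–Galois module `T_p J / p`**, abstractly: a finite `B`-module `Y` with a
`B`-linear Galois action, a surjection `q : T_p J → Y` and an injection `ι : Y → J₀(N)` with
`ι ∘ q = proj 1`, such that `ker π` is in the support of `Y` (`(ker π) Y ≠ Y`). -/
theorem exists_quot
    (ev : B →ₐ[ℤ_[p]] Module.End ℤ_[p] (TJ p N)) (hinj : Function.Injective ev)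
    (hcomm : ∀ (σ : GQ) (b : B), Commute (rhoT p N σ) (ev b))
    (π : B →+* D) (hpD : (p : D) = 0) :
    ∃ (Y : Type) (_ : AddCommGroup Y) (_ : Module B Y) (_ : Finite Y)
      (ρY : GQ →* Module.End B Y) (q : TJ p N →+ Y) (ι : Y →+ JZero N),
      Function.Surjective q ∧ Function.Injective ι ∧ (∀ x : TJ p N, ι (q x) = proj 1 x) ∧
      (∀ (b : B) (x : TJ p N), q (ev b x) = b • q x) ∧
      (∀ (σ : GQ) (x : TJ p N), ρY σ (q x) = q (rhoT p N σ x)) ∧
      (RingHom.ker π) • (⊤ : Submodule B Y) ≠ ⊤ := by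
  classical
  have hfin : {y : JZero N | p • y = 0}.Finite := Fermat.Agent.ES.J.S30Final8.k1 p N
  haveI : Finite {y : JZero N // p • y = 0} := hfin.to_subtype
  haveI : Module.Finite ℤ_[p] (TJ p N) := (finite_free hfin).1
  -- `TJ` as a `B`-module
  letI modB : Module B (TJ p N) := Module.compHom _ (ev : B →+* Module.End ℤ_[p] (TJ p N))
  have hsmul : ∀ (b : B) (x : TJ p N), b • x = ev b x := fun _ _ => rfl
  haveI : IsScalarTower ℤ_[p] B (TJ p N) := ⟨fun c b x => by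
    rw [hsmul, hsmul, map_smul]
    rfl⟩
  haveI : Module.Finite B (TJ p N) := Module.Finite.of_restrictScalars_finite ℤ_[p] B _
  have hfaith : ∀ b : B, (∀ x : TJ p N, b • x = 0) → b = 0 := fun b hb =>
    hinj (by rw [map_zero]; exact LinearMap.ext hb)
  have hnat : ∀ (n : ℕ) (x : TJ p N), (n : B) • x = (n : ℤ_[p]) • x := by
    intro n x
    rw [hsmul, map_natCast, Module.End.natCast_apply]
    exact (Nat.cast_smul_eq_nsmul ℤ_[p] n x).symm
  have hI : RingHom.ker π ≠ ⊤ := RingHom.ker_ne_top π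
  have hpI : (p : B) ∈ RingHom.ker π := by rw [RingHom.mem_ker, map_natCast, hpD]
  have hne := Fermat.Agent.T1B.GBLR83.Socle.smul_top_quotient_ne_top (M := TJ p N)
    (I := RingHom.ker π) (J := Ideal.span {(p : B)})
    ((Ideal.span_singleton_le_iff_mem _).2 hpI)
    (Fermat.Agent.T1B.GBLR83.Socle.smul_top_ne_top_of_faithful hfaith _ hI)
  set NB : Submodule B (TJ p N) := Ideal.span {(p : B)} • ⊤ with hNBdef
  have hNB : ∀ x : TJ p N, x ∈ NB ↔ proj 1 x = 0 := by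
    intro x
    rw [hNBdef, Submodule.ideal_span_singleton_smul, proj_eq_zero_iff']
    constructor
    · rintro ⟨y, -, rfl⟩
      refine ⟨y, ?_⟩
      rw [pow_one]
      exact hnat p y
    · rintro ⟨y, rfl⟩
      refine ⟨y, Submodule.mem_top, ?_⟩
      rw [pow_one]
      exact hnat p y
  -- the Galois action, `B`-linearly
  let ρB : GQ →* Module.End B (TJ p N) :=
    { toFun := fun σ =>
        { toFun := fun x => rhoT p N σ x
          map_add' := fun x y => map_add _ x y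
          map_smul' := fun b x => by
            rw [RingHom.id_apply, hsmul, hsmul]
            exact congrArg (fun F : Module.End ℤ_[p] (TJ p N) => F x) (hcomm σ b).eq }
      map_one' := by
        refine LinearMap.ext fun x => ?_
        show rhoT p N 1 x = x
        rw [map_one]
        rfl
      map_mul' := fun σ τ => by
        refine LinearMap.ext fun x => ?_
        show rhoT p N (σ * τ) x = rhoT p N σ (rhoT p N τ x)
        rw [map_mul]
        rfl }
  have hρB : ∀ (σ : GQ) (x : TJ p N), ρB σ x = rhoT p N σ x := fun _ _ => rfl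
  have hρN : ∀ σ : GQ, NB ≤ NB.comap (ρB σ) := by
    intro σ x hx
    rw [Submodule.mem_comap, hNB, hρB, proj_rhoT, (hNB x).1 hx]
    exact smul_zero (A := JZero N) σ
  let ρY : GQ →* Module.End B (TJ p N ⧸ NB) :=
    { toFun := fun σ => NB.mapQ NB (ρB σ) (hρN σ)
      map_one' := by
        refine LinearMap.ext fun y => ?_
        induction y using Submodule.Quotient.induction_on with
        | _ x => rw [Submodule.mapQ_apply, map_one]; rfl
      map_mul' := fun σ τ => by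
        refine LinearMap.ext fun y => ?_
        induction y using Submodule.Quotient.induction_on with
        | _ x =>
          rw [Module.End.mul_apply, Submodule.mapQ_apply, Submodule.mapQ_apply,
            Submodule.mapQ_apply, map_mul]
          rfl }
  let ι : (TJ p N ⧸ NB) →+ JZero N :=
    QuotientAddGroup.lift NB.toAddSubgroup (proj 1) (fun x hx => (hNB x).1 hx)
  have hι : ∀ x : TJ p N, ι (Submodule.Quotient.mk x) = proj 1 x := fun x => rfl
  have hιinj : Function.Injective ι := by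
    rw [injective_iff_map_eq_zero]
    intro y hy
    induction y using Submodule.Quotient.induction_on with
    | _ x =>
      rw [hι] at hy
      exact (Submodule.Quotient.mk_eq_zero _).2 ((hNB x).2 hy)
  have hιp : ∀ y : TJ p N ⧸ NB, p • ι y = 0 := by
    intro y
    induction y using Submodule.Quotient.induction_on with
    | _ x =>
      rw [hι]
      have := pow_smul_proj 1 x
      rwa [pow_one] at this
  have hY : Finite (TJ p N ⧸ NB) :=
    Finite.of_injective (fun y => (⟨ι y, hιp y⟩ : {y : JZero N // p • y = 0}))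
      (fun y z h => hιinj (congrArg Subtype.val h))
  exact ⟨TJ p N ⧸ NB, inferInstance, inferInstance, hY, ρY, (NB.mkQ : TJ p N →ₗ[B] _).toAddMonoidHom,
    ι, Submodule.Quotient.mk_surjective NB, hιinj, hι, fun b x => rfl, fun σ x => rfl, hne⟩

/-- **G-BLR, generic form.** -/
theorem exists_embedding
    (ev : B →ₐ[ℤ_[p]] Module.End ℤ_[p] (TJ p N)) (hinj : Function.Injective ev)
    (hcomm : ∀ (σ : GQ) (b : B), Commute (rhoT p N σ) (ev b))
    (S : Finset ℕ) (hpS : p ∈ S) (tB : ℕ → B)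
    (htB : ∀ (ℓ : ℕ) (hℓ : ℓ.Prime), ¬ ℓ ∣ N → ℓ ∉ S → ev (tB ℓ) = tT p N ⟨ℓ, hℓ⟩)
    (π : B →+* D) (hπ : Function.Surjective π) (hpD : (p : D) = 0)
    (ρV : GQ →* Module.End D V)
    (hV : Module.finrank D V = 2) (htwo : (2 : D) ≠ 0)
    (hspan : Submodule.span D (Set.range ρV) = ⊤)
    (hcont : ∃ L : IntermediateField ℚ Qb, FiniteDimensional ℚ L ∧
      ∀ σ : GQ, (∀ a ∈ L, σ a = a) → ρV σ = 1)
    (hchar : ∀ (ℓ : ℕ), ℓ.Prime → ¬ ℓ ∣ N → ℓ ∉ S →
      ∀ A : ValuationSubring Qb, A.LiesOverPrime ℓ → ∀ φ : GQ, A.IsFrobeniusAt φ ℓ →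
        (ρV φ).charpoly = X ^ 2 - C (π (tB ℓ)) * X + C (ℓ : D)) :
    ∃ Ψ : V →+ JZero N, Function.Injective Ψ ∧ (∀ (σ : GQ) (v : V), Ψ (ρV σ v) = σ • Ψ v) ∧
      (∀ v : V, p • Ψ v = 0) ∧ (∀ v : V, ∃ x : TJ p N, proj 1 x = Ψ v) ∧
      ∀ (b : B) (v : V) (x : TJ p N), proj 1 x = Ψ v → proj 1 (ev b x) = Ψ (π b • v) := by
  classical
  have hfin : {y : JZero N | p • y = 0}.Finite := Fermat.Agent.ES.J.S30Final8.k1 p N
  obtain ⟨Y, _, _, _, ρY, q, ι, hq, hιinj, hι, hqB, hρY, hne⟩ := exists_quot ev hinj hcomm π hpD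
  have hnat : ∀ (n : ℕ) (x : TJ p N), ev (n : B) x = (n : ℤ_[p]) • x := by
    intro n x
    rw [map_natCast, Module.End.natCast_apply]
    exact (Nat.cast_smul_eq_nsmul ℤ_[p] n x).symm
  have hne_p : ∀ ℓ : ℕ, ℓ ∉ S → ℓ ≠ p := fun ℓ hℓS h => hℓS (h ▸ hpS)
  -- the Frobenius data
  let Φ : GQ → ℕ → B → Prop := fun φ ℓ t =>
    ∃ (_ : ℓ.Prime) (_ : ¬ ℓ ∣ N) (_ : ℓ ∉ S) (A : ValuationSubring Qb),
      A.LiesOverPrime ℓ ∧ A.IsFrobeniusAt φ ℓ ∧ t = tB ℓ
  have hΦY : ∀ φ ℓ t, Φ φ ℓ t → ∀ y : Y, t • y = ρY φ y + (ℓ : B) • ρY φ⁻¹ y := by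
    rintro φ ℓ t ⟨hℓ, hℓN, hℓS, A, hA, hφ, rfl⟩ y
    obtain ⟨x, rfl⟩ := hq y
    have h1 := rhoT_frobenius (p := p) (N := N) hℓ hℓN (hne_p ℓ hℓS) hA hφ
    have hFF' : rhoT p N φ * rhoT p N φ⁻¹ = 1 := by rw [← map_mul, mul_inv_cancel, map_one]
    have h2 : tT p N ⟨ℓ, hℓ⟩ = rhoT p N φ + (ℓ : ℤ_[p]) • rhoT p N φ⁻¹ := by
      have := congrArg (fun X => X * rhoT p N φ⁻¹) h1
      simp only [add_mul, sub_mul, smul_mul_assoc, mul_assoc, hFF', mul_one, one_mul,
        zero_mul] at this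
      rw [sub_add_eq_add_sub, sub_eq_zero] at this
      exact this.symm
    rw [hρY, hρY, ← hqB, ← hqB, ← map_add, htB ℓ hℓ hℓN hℓS, h2, hnat]
    rfl
  have hΦV : ∀ φ ℓ t, Φ φ ℓ t → (ρV φ).charpoly = X ^ 2 - C (π t) * X + C (ℓ : D) := by
    rintro φ ℓ t ⟨hℓ, hℓN, hℓS, A, hA, hφ, rfl⟩
    exact hchar ℓ hℓ hℓN hℓS A hA φ hφ
  have hdense : ∀ g : GQ, ∃ φ ℓ t, ∃ j : ℕ, Φ φ ℓ t ∧ ρV (g⁻¹ * φ ^ j) = 1 ∧
      ρY (g⁻¹ * φ ^ j) = 1 := by
    intro g
    obtain ⟨L₁, hL₁, h1⟩ := hcont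
    obtain ⟨L₂, hL₂, h2⟩ := rhoT_continuous (p := p) (N := N) hfin 1
    have := hL₁
    have := hL₂
    obtain ⟨ℓ, A, φ, j, hℓ, hℓT, hA, hφ, hj⟩ :=
      Fermat.Agent.ES.GAL.ChebQbar23.exists_frobenius_inv_mul_pow_fixes (L₁ ⊔ L₂) g
        (S ∪ N.primeFactors)
    have hℓS : ℓ ∉ S := fun h => hℓT (Finset.mem_union_left _ h)
    have hℓN : ¬ ℓ ∣ N := fun h => hℓT (Finset.mem_union_right _
      (Nat.mem_primeFactors.2 ⟨hℓ, h, NeZero.ne N⟩))
    refine ⟨φ, ℓ, tB ℓ, j, ⟨hℓ, hℓN, hℓS, A, hA, hφ, rfl⟩, ?_, ?_⟩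
    · exact h1 _ fun x hx => hj x (le_sup_left (a := L₁) (b := L₂) hx)
    · refine LinearMap.ext fun y => ?_
      obtain ⟨x, rfl⟩ := hq y
      rw [hρY, Module.End.one_apply]
      apply hιinj
      rw [hι, hι, ← sub_eq_zero, ← map_sub, proj_eq_zero_iff']
      exact h2 _ (fun x hx => hj x (le_sup_right (a := L₁) (b := L₂) hx)) x
  obtain ⟨Ψ₀, hΨinj, hΨeq, hΨB⟩ := Fermat.Agent.T1B.GBLR83.ModP.exists_embedding
    ρY π hπ ρV hne hV htwo hspan Φ hΦY hΦV hdense
  obtain ⟨Ψ, hΨ⟩ : ∃ Ψ : V →+ JZero N, ∀ v : V, Ψ v = ι (Ψ₀ v) := ⟨ι.comp Ψ₀, fun _ => rfl⟩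
  refine ⟨Ψ, ?_, ?_, ?_, ?_, ?_⟩
  · intro v w hvw
    rw [hΨ, hΨ] at hvw
    exact hΨinj (hιinj hvw)
  · intro σ v
    rw [hΨ, hΨ, hΨeq]
    obtain ⟨x, hx⟩ := hq (Ψ₀ v)
    rw [← hx, hρY, hι, hι, proj_rhoT]
  · intro v
    rw [hΨ]
    obtain ⟨x, hx⟩ := hq (Ψ₀ v)
    rw [← hx, hι]
    have := pow_smul_proj 1 x
    rwa [pow_one] at this
  · intro v
    obtain ⟨x, hx⟩ := hq (Ψ₀ v)
    exact ⟨x, by rw [hΨ, ← hx, hι]⟩
  · intro b v x hx
    have h1 : q x = Ψ₀ v := hιinj (by rw [hι, hx, hΨ])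
    rw [hΨ, ← hΨB, ← h1, ← hqB, hι]

end Fermat.Agent.T1B.GBLR83.Tate
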