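/-
T1B / G2 G-BLR (helper83), Stage 1: **Boston–Lenstra–Ribet modulo `p` for `J₀(N)` and the anemic Hecke
algebra** (`S ⊇` primes of `N`, `p ∈ S`).

`θ : heckeAlgebra N 2 S → D` a surjective ring homomorphism onto a field of characteristic `p`,
`(V, ρV)` a two-dimensional `D`-representation of `G_ℚ` factoring through a number field, whose image
spans `End_D V`, with `charpoly (ρV Frob_ℓ) = X² − θ(T_ℓ) X + ℓ` (`ℓ ∉ S`).  Then there is an injective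
additive `G_ℚ`-equivariant map `Ψ : V → J₀(N)(ℚ̄)[p]` with `T_ℓ (Ψ v) = Ψ (θ(T_ℓ) v)`.
-/
import Mathlib
import Fermat.Agent.ES.K.HeckeTate26
import Fermat.Agent.T1B.GBLR83.Tate

set_option autoImplicit false
set_option linter.unusedSectionVars false
set_option linter.style.haveILetI false
set_option synthInstance.maxHeartbeats 400000
set_option maxHeartbeats 1000000

open Polynomial AlgebraicCurve ModularCurve CuspForm TensorProduct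

noncomputable section

namespace Fermat.Agent.T1B.GBLR83.Anemic

open Fermat.Agent.ES.J.TateJZero13 Fermat.Agent.ES.J.TateModule13 Fermat.Agent.ES.K.HeckeTate26

local notation "Qb" => AlgebraicClosure ℚ
local notation "GQ" => (AlgebraicClosure ℚ ≃ₐ[ℚ] AlgebraicClosure ℚ)

/-- the ring homomorphism `ℤ_[p] → D` for a field (ring) of characteristic `p`. -/
def padicToCharP (p : ℕ) [Fact p.Prime] (D : Type*) [Ring D] [CharP D p] : ℤ_[p] →+* D :=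
  (ZMod.castHom (dvd_refl p) D).comp PadicInt.toZMod

variable {p : ℕ} [hp : Fact p.Prime] {N : ℕ} [NeZero N]
  {D : Type*} [Field D] [CharP D p]
  {V : Type*} [AddCommGroup V] [Module D V] [Module.Finite D V]

/-- the extension of an eigensystem `θ` to the `p`-adic Hecke algebra. -/
def extend {R₀ : Type*} [CommRing R₀] (θ : R₀ →+* D) : ℤ_[p] ⊗[ℤ] R₀ →ₐ[ℤ] D :=
  Algebra.TensorProduct.lift (padicToCharP p D).toIntAlgHom θ.toIntAlgHom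
    (fun _ _ => Commute.all _ _)

theorem extend_tmul {R₀ : Type*} [CommRing R₀] (θ : R₀ →+* D) (c : ℤ_[p]) (r : R₀) :
    extend θ (c ⊗ₜ[ℤ] r) = padicToCharP p D c * θ r := by
  unfold extend
  rw [Algebra.TensorProduct.lift_tmul]
  rfl

theorem extend_one_tmul {R₀ : Type*} [CommRing R₀] (θ : R₀ →+* D) (r : R₀) :
    extend (p := p) θ ((1 : ℤ_[p]) ⊗ₜ[ℤ] r) = θ r := by
  rw [extend_tmul, map_one, one_mul]

/-- **G-BLR for the anemic Hecke algebra.** -/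
theorem exists_embedding (S : Finset ℕ) (hpS : p ∈ S)
    (hNS : ∀ q : ℕ, q.Prime → q ∣ N → q ∈ S)
    (θ : ↥(heckeAlgebra N 2 (↑S : Set ℕ)) →+* D) (hθ : Function.Surjective θ)
    (ρV : GQ →* Module.End D V)
    (hV : Module.finrank D V = 2) (htwo : (2 : D) ≠ 0)
    (hspan : Submodule.span D (Set.range ρV) = ⊤)
    (hcont : ∃ L : IntermediateField ℚ Qb, FiniteDimensional ℚ L ∧
      ∀ σ : GQ, (∀ a ∈ L, σ a = a) → ρV σ = 1)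
    (hchar : ∀ (ℓ : ℕ) (hℓ : ℓ.Prime) (hℓN : ¬ ℓ ∣ N) (hℓS : ℓ ∉ (↑S : Set ℕ)),
      ∀ A : ValuationSubring Qb, A.LiesOverPrime ℓ → ∀ φ : GQ, A.IsFrobeniusAt φ ℓ →
        (ρV φ).charpoly = X ^ 2 - C (θ (heckeAlgebra.T hℓ hℓN hℓS)) * X + C (ℓ : D)) :
    ∃ Ψ : V →+ JZero N, Function.Injective Ψ ∧ (∀ (σ : GQ) (v : V), Ψ (ρV σ v) = σ • Ψ v) ∧
      (∀ v : V, p • Ψ v = 0) ∧
      ∀ (ℓ : ℕ) (hℓ : ℓ.Prime) (hℓN : ¬ ℓ ∣ N) (hℓS : ℓ ∉ (↑S : Set ℕ)) (v : V),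
        heckeOperatorBar N ⟨ℓ, hℓ⟩ (Ψ v) = Ψ (θ (heckeAlgebra.T hℓ hℓN hℓS) • v) := by
  classical
  have hS : ∀ q : ℕ, q.Prime → q ∣ N → q ∈ (↑S : Set ℕ) := fun q hq hqN => by
    exact_mod_cast hNS q hq hqN
  let tB : ℕ → Bp p N (↑S : Set ℕ) := fun ℓ =>
    if h : ℓ.Prime ∧ ¬ ℓ ∣ N ∧ ℓ ∉ (↑S : Set ℕ) then
      (1 : ℤ_[p]) ⊗ₜ[ℤ] heckeAlgebra.T h.1 h.2.1 h.2.2 else 0
  have htB' : ∀ (ℓ : ℕ) (hℓ : ℓ.Prime) (hℓN : ¬ ℓ ∣ N) (hℓS : ℓ ∉ (↑S : Set ℕ)),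
      tB ℓ = (1 : ℤ_[p]) ⊗ₜ[ℤ] heckeAlgebra.T hℓ hℓN hℓS := by
    intro ℓ hℓ hℓN hℓS
    show (if h : ℓ.Prime ∧ ¬ ℓ ∣ N ∧ ℓ ∉ (↑S : Set ℕ) then
      (1 : ℤ_[p]) ⊗ₜ[ℤ] heckeAlgebra.T h.1 h.2.1 h.2.2 else 0) = _
    rw [dif_pos ⟨hℓ, hℓN, hℓS⟩]
  have hpD : (p : D) = 0 := CharP.cast_eq_zero D p
  have hπsurj : Function.Surjective
      ((extend (p := p) θ : Bp p N (↑S : Set ℕ) →ₐ[ℤ] D) : Bp p N (↑S : Set ℕ) →+* D) := by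
    intro d
    obtain ⟨r, rfl⟩ := hθ d
    exact ⟨(1 : ℤ_[p]) ⊗ₜ[ℤ] r, extend_one_tmul θ r⟩
  have hev : ∀ (ℓ : ℕ) (hℓ : ℓ.Prime), ¬ ℓ ∣ N → ℓ ∉ S →
      evJ (p := p) (↑S : Set ℕ) hS (tB ℓ) = tT p N ⟨ℓ, hℓ⟩ := by
    intro ℓ hℓ hℓN hℓS
    have hℓS' : ℓ ∉ (↑S : Set ℕ) := by simpa using hℓS
    rw [htB' ℓ hℓ hℓN hℓS', evJ_T]
  have hch : ∀ (ℓ : ℕ), ℓ.Prime → ¬ ℓ ∣ N → ℓ ∉ S →
      ∀ A : ValuationSubring Qb, A.LiesOverPrime ℓ → ∀ φ : GQ, A.IsFrobeniusAt φ ℓ →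
        (ρV φ).charpoly = X ^ 2 - C (((extend (p := p) θ : Bp p N (↑S : Set ℕ) →ₐ[ℤ] D) :
          Bp p N (↑S : Set ℕ) →+* D) (tB ℓ)) * X + C (ℓ : D) := by
    intro ℓ hℓ hℓN hℓS A hA φ hφ
    have hℓS' : ℓ ∉ (↑S : Set ℕ) := by simpa using hℓS
    have e : ((extend (p := p) θ : Bp p N (↑S : Set ℕ) →ₐ[ℤ] D) : Bp p N (↑S : Set ℕ) →+* D)
        ((1 : ℤ_[p]) ⊗ₜ[ℤ] heckeAlgebra.T hℓ hℓN hℓS') = θ (heckeAlgebra.T hℓ hℓN hℓS') :=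
      extend_one_tmul θ _
    rw [htB' ℓ hℓ hℓN hℓS', e]
    exact hchar ℓ hℓ hℓN hℓS' A hA φ hφ
  obtain ⟨Ψ, hinj, heq, hp0, hlift, hB⟩ := Fermat.Agent.T1B.GBLR83.Tate.exists_embedding
    (B := Bp p N (↑S : Set ℕ))
    (evJ (p := p) (↑S : Set ℕ) hS) (evJ_injective (p := p) (↑S : Set ℕ) hS)
    (fun σ b => commute_rhoT_evJ (p := p) (↑S : Set ℕ) hS σ b) S hpS tB hev
    ((extend (p := p) θ : Bp p N (↑S : Set ℕ) →ₐ[ℤ] D) : Bp p N (↑S : Set ℕ) →+* D)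
    hπsurj hpD ρV hV htwo hspan hcont hch
  refine ⟨Ψ, hinj, heq, hp0, ?_⟩
  intro ℓ hℓ hℓN hℓS v
  obtain ⟨x, hx⟩ := hlift v
  have h1 := hB ((1 : ℤ_[p]) ⊗ₜ[ℤ] heckeAlgebra.T hℓ hℓN hℓS) v x hx
  have e : ((extend (p := p) θ : Bp p N (↑S : Set ℕ) →ₐ[ℤ] D) : Bp p N (↑S : Set ℕ) →+* D)
      ((1 : ℤ_[p]) ⊗ₜ[ℤ] heckeAlgebra.T hℓ hℓN hℓS) = θ (heckeAlgebra.T hℓ hℓN hℓS) :=
    extend_one_tmul θ _
  rw [evJ_T, e] at h1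
  have h2 : proj 1 (tT p N ⟨ℓ, hℓ⟩ x) = heckeOperatorBar N ⟨ℓ, hℓ⟩ (proj 1 x) := rfl
  rw [← hx]
  exact h2.symm.trans h1

end Fermat.Agent.T1B.GBLR83.Anemic
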