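/-
Programme T1B, brick 582 (G2 G-BLR), Stage 2, file 1 (helper83): **the FULL `p`-adic Hecke algebra
(including the `U_q`, `q ∣ N`) acts faithfully on the Tate module of `J₀(N)`**, compatibly with the
Galois action.  Twin of `ES/K/HeckeTate26` (anemic algebra) for an ARBITRARY set `S` of excluded
primes.

* `iotaF p N : Λ → T_p J₀(N)` (the comparison `TateCompare11.iota` of the unconditional Kummer system),
  `isBaseChange_iotaF`, `tT_iotaF` (`T_ℓ`, `ℓ ∤ N`), `mapU_iotaF` (`U_q = β_* α^*`, `q ∣ N`);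
* `evF S : Bp p N S →ₐ[ℤ_[p]] End (TJ p N)`, `evF_injective`, `evF_T`, `evF_U`, `commute_rhoT_evF`;
* `fullTateAction : Lift7.FullTateAction KumU48.heckeUFamily` (the input of helper7's LIFT0).
-/
import Mathlib
import Fermat.Agent.ES.K.HeckeTate26
import Fermat.Agent.ES.S16.FaithFull19
import Fermat.Agent.T1B.Lift69.UqTate
import Fermat.Agent.T1B.KumU48.UFamily
import Fermat.Agent.T1B.Lift7.Iface

set_option autoImplicit false
set_option linter.unusedSectionVars false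
set_option linter.style.haveILetI false

noncomputable section

namespace Fermat.Agent.T1B.GBLR83.Full

open TensorProduct CuspForm ModularCurve CongruenceSubgroup
open Fermat.Agent.ES.HEQ.FaithInst26 Fermat.Agent.ES.HEQ.FaithFinal26
open Fermat.Agent.ES.HEQ.ParLattice11 Fermat.Agent.ES.HEQ.DoubleCosetPar27
open Fermat.Agent.ES.J.TateModule13 Fermat.Agent.ES.J.TateJZero13 Fermat.Agent.ES.J.TateCompare11
open Fermat.Agent.ES.J.KummerSystemFinal18 Fermat.Agent.ES.J.TateChar11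
open Fermat.Agent.ES.K.BaseChangeFaith26 Fermat.Agent.ES.K.HeckeTate26
open Fermat.Agent.ES.S16.FaithFull19 Fermat.Agent.ES.LR.UqOp28
open Fermat.Agent.T1B.KumU48

local notation "Qb" => AlgebraicClosure ℚ

variable (p : ℕ) [hp : Fact p.Prime] (N : ℕ) [NeZero N]

/-- the comparison `Λ → T_p J₀(N)` (explicit: `TateCompare11.iota` of the Kummer system). -/
def iotaF : ↥(Lam N) →ₗ[ℤ] TJ p N := iota (kummerSystemJ p N)

theorem isBaseChange_iotaF : IsBaseChange ℤ_[p] (iotaF p N) :=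
  isBaseChange_iota (kummerSystemJ p N) (fg_Gamma0 N)

/-- `T_ℓ`-compatibility of the comparison. -/
theorem tT_iotaF (ℓ : ℕ) [Fact ℓ.Prime] (hℓ : ℓ.Prime) (hℓN : ¬ ℓ ∣ N) (x : ↥(Lam N)) :
    tT p N ⟨ℓ, hℓ⟩ (iotaF p N x) = iotaF p N (tdcPar hℓN ℤ ℤ x) :=
  map_iota hℓN (kummerSystemJ p N) (heckeOperatorBar N ⟨ℓ, hℓ⟩).toAddMonoidHom
    (fun k y hfy => heckeCompatJ p N ℓ hℓ hℓN k y hfy) x

/-- the two copies of `U_q` on characters agree. -/
theorem UqX_eq {q : ℕ} [Fact q.Prime] (hqN : q ∣ N) :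
    Fermat.Agent.T1B.Lift69.UqTate.UqX hqN = Fermat.Agent.T1B.KumU48.UqX hqN := by
  refine AddMonoidHom.ext fun χ => ?_
  apply Additive.toMul.injective
  refine MonoidHom.ext fun γ => ?_
  rw [Fermat.Agent.T1B.Lift69.UqTate.UqX_apply, Fermat.Agent.T1B.KumU48.UqX_apply]

/-- `U_q`-compatibility of the comparison (`U_q = β_* α^*`). -/
theorem mapU_iotaF (q : ℕ) [Fact q.Prime] (hqN : q ∣ N) (x : ↥(Lam N)) :
    map (heckeUBar N q hqN).toAddMonoidHom (iotaF p N x) = iotaF p N (UqPar hqN ℤ ℤ x) := by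
  refine Fermat.Agent.T1B.Lift69.UqTate.map_iota_Uq hqN (kummerSystemJ p N)
    (heckeUBar N q hqN).toAddMonoidHom (fun k y hfy => ?_) x
  rw [UqX_eq]
  haveI := finiteTorsion N (p ^ k)
  exact kumQAdd_heckeUBar hqN (p ^ k) y hfy

variable {p N}
variable (S : Set ℕ)

/-- **the action of the full `p`-adic Hecke algebra on `T_p J₀(N)`.** -/
def evF : Bp p N S →ₐ[ℤ_[p]] Module.End ℤ_[p] (TJ p N) :=
  evB (heckeLamFull S) (iotaF p N) (isBaseChange_iotaF p N)

theorem evF_tmul_apply (a : ℤ_[p]) (x : ↥(heckeAlgebra N 2 S)) (l : ↥(Lam N)) :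
    evF (p := p) S (a ⊗ₜ[ℤ] x) (iotaF p N l) = a • iotaF p N (heckeLamFull S x l) :=
  evB_tmul_apply _ _ _ a x l

/-- **faithfulness**. -/
theorem evF_injective : Function.Injective (evF (p := p) (N := N) S) :=
  haveI : Module.FinitePresentation ℤ ↥(Lam N) := Module.finitePresentation_of_finite ℤ _
  evB_injective _ _ _ (heckeLamFull_injective S)

theorem evF_tmul (a : ℤ_[p]) (x : ↥(heckeAlgebra N 2 S)) :
    evF (p := p) S (a ⊗ₜ[ℤ] x) = a • evF (p := p) S (1 ⊗ₜ[ℤ] x) := by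
  rw [← map_smul, TensorProduct.smul_tmul', smul_eq_mul, mul_one]

/-- `T_ℓ` acts as the Hecke correspondence. -/
theorem evF_T (ℓ : ℕ) (hℓ : ℓ.Prime) (hℓN : ¬ ℓ ∣ N) (hℓS : ℓ ∉ S) :
    evF (p := p) S (1 ⊗ₜ[ℤ] heckeAlgebra.T hℓ hℓN hℓS) = tT p N ⟨ℓ, hℓ⟩ := by
  haveI : Fact ℓ.Prime := ⟨hℓ⟩
  refine (isBaseChange_iotaF p N).algHom_ext _ _ fun l => ?_
  rw [evF_tmul_apply, one_smul, heckeLamFull_T S ℓ hℓ hℓN hℓS, tT_iotaF p N ℓ hℓ hℓN]

/-- `U_q` acts as the classical `U_q = β_* α^*`. -/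
theorem evF_U (q : ℕ) (hq : q.Prime) (hqN : q ∣ N) (hqS : q ∉ S) :
    evF (p := p) S (1 ⊗ₜ[ℤ] heckeAlgebra.U hq hqN hqS) =
      (haveI : Fact q.Prime := ⟨hq⟩; Fermat.Agent.ES.J.TateModule13.map (heckeUBar N q hqN).toAddMonoidHom) := by
  haveI : Fact q.Prime := ⟨hq⟩
  refine (isBaseChange_iotaF p N).algHom_ext _ _ fun l => ?_
  rw [evF_tmul_apply, one_smul, heckeLamFull_U S q hq hqN hqS, mapU_iotaF p N q hqN]

/-- the integral part `x ↦ evF (1 ⊗ x)`. -/
def evFZ : ↥(heckeAlgebra N 2 S) →ₐ[ℤ] Module.End ℤ_[p] (TJ p N) :=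
  ((evF (p := p) (N := N) S).restrictScalars ℤ).comp Algebra.TensorProduct.includeRight

theorem evFZ_apply (x : ↥(heckeAlgebra N 2 S)) :
    evFZ (p := p) S x = evF (p := p) S (1 ⊗ₜ[ℤ] x) := rfl

/-- the classical `U_q` on the Tate module commutes with the Galois action. -/
theorem commute_rhoT_mapU (σ : Qb ≃ₐ[ℚ] Qb) (q : ℕ) [Fact q.Prime] (hqN : q ∣ N) :
    Commute (rhoT p N σ) (Fermat.Agent.ES.J.TateModule13.map (heckeUBar N q hqN).toAddMonoidHom) := by
  refine LinearMap.ext fun x => ?_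
  ext k
  show σ • heckeUBar N q hqN (proj k x) = heckeUBar N q hqN (σ • proj k x)
  exact (heckeUBar_smul N q hqN σ (proj k x)).symm

/-- the Galois action commutes with the Hecke algebra (integral part). -/
theorem commute_rhoT_evFZ (σ : Qb ≃ₐ[ℚ] Qb) (x : ↥(heckeAlgebra N 2 S)) :
    Commute (rhoT p N σ) (evFZ (p := p) S x) := by
  obtain ⟨x, hx⟩ := x
  induction hx using Algebra.adjoin_induction with
  | mem y hy =>
    rcases hy with ⟨ℓ, hℓ, hℓN, hℓS, rfl⟩ | ⟨q, hqN, hq, hqS, rfl⟩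
    · have h1 : (⟨heckeTLin 2 hℓ hℓN, Algebra.subset_adjoin
          (heckeTLin_mem_heckeGenerators hℓ hℓN hℓS)⟩ : ↥(heckeAlgebra N 2 S)) =
          heckeAlgebra.T hℓ hℓN hℓS := rfl
      rw [evFZ_apply]
      have := evF_T (p := p) S ℓ hℓ hℓN hℓS
      rw [← h1] at this
      rw [this]
      exact commute_rhoT_tT σ ⟨ℓ, hℓ⟩
    · haveI : Fact q.Prime := ⟨hq⟩
      have h1 : (⟨heckeULin 2 hqN, Algebra.subset_adjoin
          (heckeULin_mem_heckeGenerators hq hqN hqS)⟩ : ↥(heckeAlgebra N 2 S)) =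
          heckeAlgebra.U hq hqN hqS := rfl
      rw [evFZ_apply]
      have := evF_U (p := p) S q hq hqN hqS
      rw [← h1] at this
      rw [this]
      exact commute_rhoT_mapU σ q hqN
  | algebraMap r =>
    have : (⟨algebraMap ℤ _ r, Subalgebra.algebraMap_mem _ r⟩ : ↥(heckeAlgebra N 2 S)) =
        algebraMap ℤ ↥(heckeAlgebra N 2 S) r := rfl
    rw [this, AlgHom.commutes]
    exact (Algebra.commutes r _).symm
  | add y z hy hz ihy ihz =>
    have : (⟨y + z, Subalgebra.add_mem _ hy hz⟩ : ↥(heckeAlgebra N 2 S)) = ⟨y, hy⟩ + ⟨z, hz⟩ := rfl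
    rw [this, map_add]
    exact ihy.add_right ihz
  | mul y z hy hz ihy ihz =>
    have : (⟨y * z, Subalgebra.mul_mem _ hy hz⟩ : ↥(heckeAlgebra N 2 S)) = ⟨y, hy⟩ * ⟨z, hz⟩ := rfl
    rw [this, map_mul]
    exact ihy.mul_right ihz

/-- **the Galois action commutes with the full `p`-adic Hecke algebra.** -/
theorem commute_rhoT_evF (σ : Qb ≃ₐ[ℚ] Qb) (b : Bp p N S) :
    Commute (rhoT p N σ) (evF (p := p) S b) := by
  induction b using TensorProduct.induction_on with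
  | zero => rw [map_zero]; exact Commute.zero_right _
  | tmul a x =>
    rw [evF_tmul]
    exact (commute_rhoT_evFZ S σ x).smul_right a
  | add b c hb hc => rw [map_add]; exact hb.add_right hc

/-! ### the input of LIFT0 -/

open Fermat.Agent.T1B.Lift7 in
/-- **`FullTateAction`** for the classical family `U_2 = β_* α^*` (input of helper7's LIFT0). -/
theorem fullTateAction : FullTateAction heckeUFamily := by
  intro N p _ _ _ h2N
  refine ⟨{p}, ((evF (p := p) (N := N) {p}).toRingHom.comp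
    (Algebra.TensorProduct.includeRight :
      ↥(heckeAlgebra N 2 {p}) →ₐ[ℤ] Bp p N {p}).toRingHom), ?_, ?_, ?_, ?_⟩
  · intro h
    have h2p : (2 : ℕ) = p := h
    subst h2p
    exact ‹¬ 2 ∣ N› h2N
  · intro ℓ _ _ hℓp h
    exact hℓp h
  · intro ℓ hℓ hℓN hℓS
    exact evF_T (p := p) {p} ℓ hℓ hℓN hℓS
  · intro h2N' h2S
    have h := evF_U (p := p) {p} 2 Nat.prime_two h2N' h2S
    rw [heckeUFamily_apply_of_dvd N h2N']
    exact h

end Fermat.Agent.T1B.GBLR83.Full
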