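/-
T1B / G2 G-BLR (helper83), Stage 2, file 2: **Boston–Lenstra–Ribet modulo `p` for `J₀(N)` and the FULL
Hecke algebra** (`S ∋ p` an arbitrary finite set of excluded primes; the `U_q`, `q ∣ N`, `q ∉ S`, are
in the algebra).

`θ : heckeAlgebra N 2 S → D` a surjective ring homomorphism onto a field of characteristic `p`,
`(V, ρV)` a two-dimensional `D`-representation of `G_ℚ` factoring through a number field, whose image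
spans `End_D V`, with `charpoly (ρV Frob_ℓ) = X² − θ(T_ℓ) X + ℓ` (`ℓ ∉ S`, `ℓ ∤ N`).  Then there is an
injective additive `G_ℚ`-equivariant map `Ψ : V → J₀(N)(ℚ̄)[p]` with `T_ℓ (Ψ v) = Ψ (θ(T_ℓ) v)` and
`U_q (Ψ v) = Ψ (θ(U_q) v)` (`U_q = β_* α^*`, `KumU48.heckeUBar`).
-/
import Mathlib
import Fermat.Agent.T1B.GBLR83.Full
import Fermat.Agent.T1B.GBLR83.Anemic

set_option autoImplicit false
set_option linter.unusedSectionVars false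
set_option linter.style.haveILetI false
set_option synthInstance.maxHeartbeats 400000
set_option maxHeartbeats 1000000

open Polynomial AlgebraicCurve ModularCurve CuspForm TensorProduct

noncomputable section

namespace Fermat.Agent.T1B.GBLR83.Embed

open Fermat.Agent.ES.J.TateJZero13 Fermat.Agent.ES.J.TateModule13 Fermat.Agent.ES.K.HeckeTate26
open Fermat.Agent.T1B.GBLR83.Full Fermat.Agent.T1B.GBLR83.Anemic Fermat.Agent.T1B.KumU48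

local notation "Qb" => AlgebraicClosure ℚ
local notation "GQ" => (AlgebraicClosure ℚ ≃ₐ[ℚ] AlgebraicClosure ℚ)

variable {p : ℕ} [hp : Fact p.Prime] {N : ℕ} [NeZero N]
  {D : Type*} [Field D] [CharP D p]
  {V : Type*} [AddCommGroup V] [Module D V] [Module.Finite D V]

/-- **G-BLR for the full Hecke algebra**, general form: the whole algebra acts compatibly. -/
theorem exists_embedding_gen (S : Finset ℕ) (hpS : p ∈ S)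
    (θ : ↥(heckeAlgebra N 2 (↑S : Set ℕ)) →+* D) (hθ : Function.Surjective θ)
    (ρV : GQ →* Module.End D V)
    (hV : Module.finrank D V = 2) (htwo : (2 : D) ≠ 0)
    (hspan : Submodule.span D (Set.range ρV) = ⊤)
    (hcont : ∃ L : IntermediateField ℚ Qb, FiniteDimensional ℚ L ∧
      ∀ σ : GQ, (∀ a ∈ L, σ a = a) → ρV σ = 1)
    (hchar : ∀ (ℓ : ℕ) (hℓ : ℓ.Prime) (hℓN : ¬ ℓ ∣ N) (hℓS : ℓ ∉ (↑S : Set ℕ)),
      ∀ A : ValuationSubring Qb, A.LiesOverPrime ℓ → ∀ φ : GQ, A.IsFrobeniusAt φ ℓ →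
        (ρV φ).charpoly = X ^ 2 - C (θ (heckeAlgebra.T hℓ hℓN hℓS)) * X + C (ℓ : D)) :
    ∃ Ψ : V →+ JZero N, Function.Injective Ψ ∧ (∀ (σ : GQ) (v : V), Ψ (ρV σ v) = σ • Ψ v) ∧
      (∀ v : V, p • Ψ v = 0) ∧ (∀ v : V, ∃ x : TJ p N, proj 1 x = Ψ v) ∧
      ∀ (r : ↥(heckeAlgebra N 2 (↑S : Set ℕ))) (v : V) (x : TJ p N), proj 1 x = Ψ v →
        proj 1 (evF (p := p) (↑S : Set ℕ) ((1 : ℤ_[p]) ⊗ₜ[ℤ] r) x) = Ψ (θ r • v) := by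
  classical
  let tB : ℕ → Bp p N (↑S : Set ℕ) := fun ℓ =>
    if h : ℓ.Prime ∧ ¬ ℓ ∣ N ∧ ℓ ∉ (↑S : Set ℕ) then
      (1 : ℤ_[p]) ⊗ₜ[ℤ] heckeAlgebra.T h.1 h.2.1 h.2.2 else 0
  have htB' : ∀ (ℓ : ℕ) (hℓ : ℓ.Prime) (hℓN : ¬ ℓ ∣ N) (hℓS : ℓ ∉ (↑S : Set ℕ)),
      tB ℓ = (1 : ℤ_[p]) ⊗ₜ[ℤ] heckeAlgebra.T hℓ hℓN hℓS := by
    intro ℓ hℓ hℓN hℓS
    show (if h : ℓ.Prime ∧ ¬ ℓ ∣ N ∧ ℓ ∉ (↑S : Set ℕ) then
      (1 : ℤ_[p]) ⊗ₜ[ℤ] heckeAlgebra.T h.1 h.2.1 h.2.2 else 0) = _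
    rw [dif_pos ⟨hℓ, hℓN, hℓS⟩]
  have hpD : (p : D) = 0 := CharP.cast_eq_zero D p
  have hπsurj : Function.Surjective
      ((extend (p := p) θ : Bp p N (↑S : Set ℕ) →ₐ[ℤ] D) : Bp p N (↑S : Set ℕ) →+* D) := by
    intro d
    obtain ⟨r, rfl⟩ := hθ d
    exact ⟨(1 : ℤ_[p]) ⊗ₜ[ℤ] r, extend_one_tmul θ r⟩
  have hev : ∀ (ℓ : ℕ) (hℓ : ℓ.Prime), ¬ ℓ ∣ N → ℓ ∉ S →
      evF (p := p) (N := N) (↑S : Set ℕ) (tB ℓ) = tT p N ⟨ℓ, hℓ⟩ := by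
    intro ℓ hℓ hℓN hℓS
    have hℓS' : ℓ ∉ (↑S : Set ℕ) := by simpa using hℓS
    rw [htB' ℓ hℓ hℓN hℓS', evF_T]
  have hch : ∀ (ℓ : ℕ), ℓ.Prime → ¬ ℓ ∣ N → ℓ ∉ S →
      ∀ A : ValuationSubring Qb, A.LiesOverPrime ℓ → ∀ φ : GQ, A.IsFrobeniusAt φ ℓ →
        (ρV φ).charpoly = X ^ 2 - C (((extend (p := p) θ : Bp p N (↑S : Set ℕ) →ₐ[ℤ] D) :
          Bp p N (↑S : Set ℕ) →+* D) (tB ℓ)) * X + C (ℓ : D) := by
    intro ℓ hℓ hℓN hℓS A hA φ hφ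
    have hℓS' : ℓ ∉ (↑S : Set ℕ) := by simpa using hℓS
    have e : ((extend (p := p) θ : Bp p N (↑S : Set ℕ) →ₐ[ℤ] D) : Bp p N (↑S : Set ℕ) →+* D)
        ((1 : ℤ_[p]) ⊗ₜ[ℤ] heckeAlgebra.T hℓ hℓN hℓS') = θ (heckeAlgebra.T hℓ hℓN hℓS') :=
      extend_one_tmul θ _
    rw [htB' ℓ hℓ hℓN hℓS', e]
    exact hchar ℓ hℓ hℓN hℓS' A hA φ hφ
  obtain ⟨Ψ, hinj, heq, hp0, hlift, hB⟩ := Fermat.Agent.T1B.GBLR83.Tate.exists_embedding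
    (B := Bp p N (↑S : Set ℕ))
    (evF (p := p) (N := N) (↑S : Set ℕ)) (evF_injective (p := p) (N := N) (↑S : Set ℕ))
    (fun σ b => commute_rhoT_evF (p := p) (N := N) (↑S : Set ℕ) σ b) S hpS tB hev
    ((extend (p := p) θ : Bp p N (↑S : Set ℕ) →ₐ[ℤ] D) : Bp p N (↑S : Set ℕ) →+* D)
    hπsurj hpD ρV hV htwo hspan hcont hch
  refine ⟨Ψ, hinj, heq, hp0, hlift, ?_⟩
  intro r v x hx
  have h1 := hB ((1 : ℤ_[p]) ⊗ₜ[ℤ] r) v x hx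
  have e : ((extend (p := p) θ : Bp p N (↑S : Set ℕ) →ₐ[ℤ] D) : Bp p N (↑S : Set ℕ) →+* D)
      ((1 : ℤ_[p]) ⊗ₜ[ℤ] r) = θ r :=
    extend_one_tmul θ _
  rw [e] at h1
  exact h1

/-- **G-BLR for the full Hecke algebra**: `T_ℓ` and `U_q` on the image. -/
theorem exists_embedding (S : Finset ℕ) (hpS : p ∈ S)
    (θ : ↥(heckeAlgebra N 2 (↑S : Set ℕ)) →+* D) (hθ : Function.Surjective θ)
    (ρV : GQ →* Module.End D V)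
    (hV : Module.finrank D V = 2) (htwo : (2 : D) ≠ 0)
    (hspan : Submodule.span D (Set.range ρV) = ⊤)
    (hcont : ∃ L : IntermediateField ℚ Qb, FiniteDimensional ℚ L ∧
      ∀ σ : GQ, (∀ a ∈ L, σ a = a) → ρV σ = 1)
    (hchar : ∀ (ℓ : ℕ) (hℓ : ℓ.Prime) (hℓN : ¬ ℓ ∣ N) (hℓS : ℓ ∉ (↑S : Set ℕ)),
      ∀ A : ValuationSubring Qb, A.LiesOverPrime ℓ → ∀ φ : GQ, A.IsFrobeniusAt φ ℓ →
        (ρV φ).charpoly = X ^ 2 - C (θ (heckeAlgebra.T hℓ hℓN hℓS)) * X + C (ℓ : D)) :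
    ∃ Ψ : V →+ JZero N, Function.Injective Ψ ∧ (∀ (σ : GQ) (v : V), Ψ (ρV σ v) = σ • Ψ v) ∧
      (∀ v : V, p • Ψ v = 0) ∧
      (∀ (ℓ : ℕ) (hℓ : ℓ.Prime) (hℓN : ¬ ℓ ∣ N) (hℓS : ℓ ∉ (↑S : Set ℕ)) (v : V),
        heckeOperatorBar N ⟨ℓ, hℓ⟩ (Ψ v) = Ψ (θ (heckeAlgebra.T hℓ hℓN hℓS) • v)) ∧
      ∀ (q : ℕ) (hq : q.Prime) (hqN : q ∣ N) (hqS : q ∉ (↑S : Set ℕ)) (v : V),
        (haveI : Fact q.Prime := ⟨hq⟩; heckeUBar N q hqN (Ψ v)) =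
          Ψ (θ (heckeAlgebra.U hq hqN hqS) • v) := by
  obtain ⟨Ψ, hinj, heq, hp0, hlift, hB⟩ :=
    exists_embedding_gen S hpS θ hθ ρV hV htwo hspan hcont hchar
  refine ⟨Ψ, hinj, heq, hp0, ?_, ?_⟩
  · intro ℓ hℓ hℓN hℓS v
    obtain ⟨x, hx⟩ := hlift v
    have h1 := hB (heckeAlgebra.T hℓ hℓN hℓS) v x hx
    rw [evF_T] at h1
    have h2 : proj 1 (tT p N ⟨ℓ, hℓ⟩ x) = heckeOperatorBar N ⟨ℓ, hℓ⟩ (proj 1 x) := rfl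
    rw [← hx]
    exact h2.symm.trans h1
  · intro q hq hqN hqS v
    haveI : Fact q.Prime := ⟨hq⟩
    obtain ⟨x, hx⟩ := hlift v
    have h1 := hB (heckeAlgebra.U hq hqN hqS) v x hx
    rw [evF_U] at h1
    have h2 : proj 1 (Fermat.Agent.ES.J.TateModule13.map (heckeUBar N q hqN).toAddMonoidHom x) =
        heckeUBar N q hqN (proj 1 x) := rfl
    show heckeUBar N q hqN (Ψ v) = _
    rw [← hx]
    exact h2.symm.trans h1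

end Fermat.Agent.T1B.GBLR83.Embed
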