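/-
T1B / G2 G-BLR (helper83), Stage 2, file 3: **from an `𝔽_p`-representation to the occurrence
subgroup** (the abstract form of EMBED44).

`(T, ρ)` a two-dimensional `𝔽_p`-representation of `G_ℚ` factoring through a number field, whose base
change to `D` (a field of characteristic `p`, the residue field of an eigencharacter
`θ : heckeAlgebra N 2 S ↠ D`) spans `End_D (D ⊗ T)`, with
`charpoly (ρ Frob_ℓ) = X² − a_ℓ X + ℓ` and `θ(T_ℓ) = a_ℓ` (`a_ℓ ∈ ℤ`) for `ℓ ∉ S`, `ℓ ∤ N`.  Then there is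
an injective additive `G_ℚ`-equivariant map `ι : T → J₀(N)(ℚ̄)[p]` with `T_ℓ (ι x) = a_ℓ • ι x` and
`c(U_q)(ι x) = 0` for every `c ∈ ℤ[X]` with `c(θ(U_q)) = 0` (`q ∣ N`, `q ∉ S`).
-/
import Mathlib
import Fermat.Agent.T1B.GBLR83.Embed

set_option autoImplicit false
set_option linter.unusedSectionVars false
set_option linter.style.haveILetI false
set_option synthInstance.maxHeartbeats 400000
set_option maxHeartbeats 1000000

open Polynomial AlgebraicCurve ModularCurve CuspForm TensorProduct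

noncomputable section

namespace Fermat.Agent.T1B.GBLR83.Occ

open Fermat.Agent.T1B.KumU48

local notation "Qb" => AlgebraicClosure ℚ
local notation "GQ" => (AlgebraicClosure ℚ ≃ₐ[ℚ] AlgebraicClosure ℚ)

variable {p : ℕ} [hp : Fact p.Prime]

section BaseChange

variable (D : Type*) [Field D] [Algebra (ZMod p) D]
  {T : Type*} [AddCommGroup T] [Module (ZMod p) T]

/-- the base change of a representation. -/
def rhoD (ρ : GQ →* Module.End (ZMod p) T) : GQ →* Module.End D (D ⊗[ZMod p] T) :=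
  ((Module.End.baseChangeHom (ZMod p) D T : Module.End (ZMod p) T →ₐ[ZMod p] _) :
    Module.End (ZMod p) T →* Module.End D (D ⊗[ZMod p] T)).comp ρ

theorem rhoD_apply (ρ : GQ →* Module.End (ZMod p) T) (σ : GQ) :
    rhoD D ρ σ = (ρ σ).baseChange D := rfl

theorem rhoD_tmul (ρ : GQ →* Module.End (ZMod p) T) (σ : GQ) (d : D) (x : T) :
    rhoD D ρ σ (d ⊗ₜ[ZMod p] x) = d ⊗ₜ[ZMod p] ρ σ x := by
  rw [rhoD_apply, LinearMap.baseChange_tmul]

/-- `x ↦ 1 ⊗ x` is injective. -/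
theorem one_tmul_injective [Module.Free (ZMod p) T] :
    Function.Injective fun x : T => (1 : D) ⊗ₜ[ZMod p] x := by
  have h1 : Function.Injective (Algebra.linearMap (ZMod p) D) :=
    (algebraMap (ZMod p) D).injective
  have h2 := Module.Flat.rTensor_preserves_injective_linearMap (M := T)
    (Algebra.linearMap (ZMod p) D) h1
  intro x y hxy
  have h3 : (Algebra.linearMap (ZMod p) D).rTensor T ((1 : ZMod p) ⊗ₜ[ZMod p] x) =
      (Algebra.linearMap (ZMod p) D).rTensor T ((1 : ZMod p) ⊗ₜ[ZMod p] y) := by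
    rw [LinearMap.rTensor_tmul, LinearMap.rTensor_tmul, Algebra.linearMap_apply, map_one]
    exact hxy
  have h4 := h2 h3
  have h5 := congrArg (TensorProduct.lid (ZMod p) T) h4
  rwa [TensorProduct.lid_tmul, TensorProduct.lid_tmul, one_smul, one_smul] at h5

end BaseChange

variable {N : ℕ} [NeZero N]
  {D : Type*} [Field D] [CharP D p] [Algebra (ZMod p) D]
  {T : Type*} [AddCommGroup T] [Module (ZMod p) T] [Module.Finite (ZMod p) T]

/-- polynomial functional calculus through an intertwiner. -/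
theorem aeval_intertwine {J V : Type*} [AddCommGroup J] [AddCommGroup V] [Module D V]
    (Ψ : V →+ J) (U : Module.End ℤ J) (u : D) (hU : ∀ v : V, U (Ψ v) = Ψ (u • v))
    (c : Polynomial ℤ) (v : V) :
    Polynomial.aeval U c (Ψ v) = Ψ (Polynomial.aeval u c • v) := by
  induction c using Polynomial.induction_on generalizing v with
  | C a =>
    rw [Polynomial.aeval_C, Polynomial.aeval_C, Module.algebraMap_end_apply, ← map_zsmul,
      eq_intCast, Int.cast_smul_eq_zsmul]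
  | add f g hf hg =>
    rw [map_add, map_add, LinearMap.add_apply, hf, hg, add_smul, map_add]
  | monomial n a ih =>
    rw [pow_succ, ← mul_assoc, map_mul (Polynomial.aeval U) _ X, map_mul (Polynomial.aeval u) _ X,
      Polynomial.aeval_X, Polynomial.aeval_X, Module.End.mul_apply, hU, ih, smul_smul]

/-- **the abstract form of EMBED44.** -/
theorem exists_embedding (S : Finset ℕ) (hpS : p ∈ S)
    (θ : ↥(heckeAlgebra N 2 (↑S : Set ℕ)) →+* D) (hθ : Function.Surjective θ)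
    (ρ : GQ →* Module.End (ZMod p) T)
    (hT : Module.finrank (ZMod p) T = 2) (htwo : p ≠ 2)
    (hspan : Submodule.span D (Set.range (rhoD D ρ)) = ⊤)
    (hcont : ∃ L : IntermediateField ℚ Qb, FiniteDimensional ℚ L ∧
      ∀ σ : GQ, (∀ a ∈ L, σ a = a) → ρ σ = 1)
    (a : ℕ → ℤ)
    (hθa : ∀ (ℓ : ℕ) (hℓ : ℓ.Prime) (hℓN : ¬ ℓ ∣ N) (hℓS : ℓ ∉ (↑S : Set ℕ)),
      θ (heckeAlgebra.T hℓ hℓN hℓS) = ((a ℓ : ℤ) : D))
    (hchar : ∀ (ℓ : ℕ), ℓ.Prime → ¬ ℓ ∣ N → ℓ ∉ (↑S : Set ℕ) →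
      ∀ A : ValuationSubring Qb, A.LiesOverPrime ℓ → ∀ φ : GQ, A.IsFrobeniusAt φ ℓ →
        (ρ φ).charpoly = X ^ 2 - C ((a ℓ : ℤ) : ZMod p) * X + C ((ℓ : ℕ) : ZMod p)) :
    ∃ ι : T →+ JZero N, Function.Injective ι ∧ (∀ (σ : GQ) (x : T), ι (ρ σ x) = σ • ι x) ∧
      (∀ x : T, (p : ℤ) • ι x = 0) ∧
      (∀ (ℓ : ℕ) (hℓ : ℓ.Prime), ¬ ℓ ∣ N → ℓ ∉ (↑S : Set ℕ) → ∀ x : T,
        heckeOperatorBar N ⟨ℓ, hℓ⟩ (ι x) = a ℓ • ι x) ∧
      ∀ (q : ℕ) (hq : q.Prime) (hqN : q ∣ N) (hqS : q ∉ (↑S : Set ℕ)) (c : Polynomial ℤ),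
        Polynomial.aeval (θ (heckeAlgebra.U hq hqN hqS)) c = 0 → ∀ x : T,
          Polynomial.aeval (haveI : Fact q.Prime := ⟨hq⟩; heckeUBar N q hqN) c (ι x) = 0 := by
  classical
  haveI : Module.Free (ZMod p) T := Module.Free.of_divisionRing _ _
  have hV : Module.finrank D (D ⊗[ZMod p] T) = 2 := by
    rw [Module.finrank_baseChange, hT]
  have htwoD : (2 : D) ≠ 0 := by
    intro h
    have h2 : ((2 : ℕ) : D) = 0 := by exact_mod_cast h
    rw [CharP.cast_eq_zero_iff D p] at h2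
    exact htwo ((Nat.prime_dvd_prime_iff_eq hp.out Nat.prime_two).mp h2)
  have hcontD : ∃ L : IntermediateField ℚ Qb, FiniteDimensional ℚ L ∧
      ∀ σ : GQ, (∀ a ∈ L, σ a = a) → rhoD D ρ σ = 1 := by
    obtain ⟨L, hL, h⟩ := hcont
    refine ⟨L, hL, fun σ hσ => ?_⟩
    rw [rhoD_apply, h σ hσ]
    exact LinearMap.baseChange_one _ _
  have hcharD : ∀ (ℓ : ℕ) (hℓ : ℓ.Prime) (hℓN : ¬ ℓ ∣ N) (hℓS : ℓ ∉ (↑S : Set ℕ)),
      ∀ A : ValuationSubring Qb, A.LiesOverPrime ℓ → ∀ φ : GQ, A.IsFrobeniusAt φ ℓ →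
        (rhoD D ρ φ).charpoly = X ^ 2 - C (θ (heckeAlgebra.T hℓ hℓN hℓS)) * X + C (ℓ : D) := by
    intro ℓ hℓ hℓN hℓS A hA φ hφ
    rw [rhoD_apply, LinearMap.charpoly_baseChange, hchar ℓ hℓ hℓN hℓS A hA φ hφ, hθa]
    rw [Polynomial.map_add, Polynomial.map_sub, Polynomial.map_mul, Polynomial.map_pow,
      Polynomial.map_X, Polynomial.map_C, Polynomial.map_C, map_intCast, map_natCast]
  obtain ⟨Ψ, hinj, heq, hp0, hTℓ, hUq⟩ := Fermat.Agent.T1B.GBLR83.Embed.exists_embedding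
    (V := D ⊗[ZMod p] T) S hpS θ hθ (rhoD D ρ) hV htwoD hspan hcontD hcharD
  refine ⟨Ψ.comp ((TensorProduct.mk (ZMod p) D T 1).toAddMonoidHom), ?_, ?_, ?_, ?_, ?_⟩
  · exact hinj.comp (one_tmul_injective D)
  · intro σ x
    show Ψ ((1 : D) ⊗ₜ[ZMod p] ρ σ x) = σ • Ψ ((1 : D) ⊗ₜ[ZMod p] x)
    rw [← heq, rhoD_tmul]
  · intro x
    show (p : ℤ) • Ψ ((1 : D) ⊗ₜ[ZMod p] x) = 0
    rw [natCast_zsmul]
    exact hp0 _
  · intro ℓ hℓ hℓN hℓS x
    show heckeOperatorBar N ⟨ℓ, hℓ⟩ (Ψ ((1 : D) ⊗ₜ[ZMod p] x)) = a ℓ • Ψ ((1 : D) ⊗ₜ[ZMod p] x)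
    rw [hTℓ ℓ hℓ hℓN hℓS, hθa, Int.cast_smul_eq_zsmul, map_zsmul]
  · intro q hq hqN hqS c hc x
    haveI : Fact q.Prime := ⟨hq⟩
    show Polynomial.aeval (heckeUBar N q hqN) c (Ψ ((1 : D) ⊗ₜ[ZMod p] x)) = 0
    rw [aeval_intertwine Ψ (heckeUBar N q hqN) (θ (heckeAlgebra.U hq hqN hqS))
      (fun v => hUq q hq hqN hqS v), hc, zero_smul, map_zero]

end Fermat.Agent.T1B.GBLR83.Occ
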