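/-
T1B / G2 G-BLR (helper83), Stage 2, file 4: **EMBED44 from the two `E[p]`-side inputs.**

`EMBED44 KumU48.heckeUFamily` (`Top68/Global.lean`) is proved from
* `ECharpoly` : `charpoly (Frob_ℓ | E[p]) = X² − a_ℓ(W) X + ℓ` for the good primes `ℓ ≠ p` of an integral
  model `W` of the Frey curve (`E[p]` irreducible);
* `ESpan`     : the image of `G_ℚ` spans `End_D (D ⊗ E[p])` for every field `D ⊇ 𝔽_p` (`E[p]` irreducible,
  `p ∣ abc`).
Everything else (the residue field `D` of the eigencharacter of `f` modulo `𝔪`, two-dimensionality of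
`E[p]`, the finite level, BLR for the full Hecke algebra) is inside.
-/
import Mathlib
import Fermat.Agent.T1B.GBLR83.Occ
import Fermat.Agent.ES.J7.EigenChar1
import Fermat.Agent.ES.J7.S42ofS29_4
import Fermat.Agent.DivPoly.CardEq29
import Fermat.Agent.T1B.NonEis2.Main

set_option autoImplicit false
set_option linter.unusedSectionVars false
set_option linter.style.haveILetI false
set_option synthInstance.maxHeartbeats 400000
set_option maxHeartbeats 1000000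

open Polynomial AlgebraicCurve ModularCurve CuspForm TensorProduct CongruenceSubgroup
open WeierstrassCurve WeierstrassCurve.Affine WeierstrassCurve.Affine.Point

noncomputable section

namespace Fermat.Agent.T1B.GBLR83.Embed44

open Fermat.Agent.T1B.KumU48 Fermat.Agent.T1B.Top68 Fermat.Agent.ES.J7.EigenChar1
open Fermat.Agent.T1B.GBLR83.Occ

local notation "Qb" => AlgebraicClosure ℚ
local notation "GQ" => (AlgebraicClosure ℚ ≃ₐ[ℚ] AlgebraicClosure ℚ)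
local notation "Zbar" => integralClosure ℤ ℂ

/-- **E-side input 1**: the characteristic polynomial of Frobenius on `E[p]`. -/
def ECharpoly : Prop :=
  ∀ (P : FreyPackage) [Fact P.p.Prime] (W : WeierstrassCurve ℤ), W.IsIntegralModelOf P.freyCurve →
    GaloisRepIsIrreducible (K := Qb) ℚ P.freyCurve P.p →
    ∀ ℓ : ℕ, ℓ.Prime → W.IsGoodPrimeFor ℓ → ℓ ≠ P.p →
    ∀ A : ValuationSubring Qb, A.LiesOverPrime ℓ → ∀ φ : GQ, A.IsFrobeniusAt φ ℓ →
      (galoisRepModuleEnd (S := ℚ) (K := Qb) P.freyCurve P.p φ).charpoly =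
        X ^ 2 - C ((W.apOfModel ℓ : ℤ) : ZMod P.p) * X + C ((ℓ : ℕ) : ZMod P.p)

/-- **E-side input 2**: the image of Galois spans the endomorphisms of `D ⊗ E[p]`. -/
def ESpan : Prop :=
  ∀ (P : FreyPackage) [Fact P.p.Prime], (P.p : ℤ) ∣ P.a * P.b * P.c →
    GaloisRepIsIrreducible (K := Qb) ℚ P.freyCurve P.p →
    ∀ (D : Type) [Field D] [Algebra (ZMod P.p) D],
      Submodule.span D (Set.range
        (rhoD D (galoisRepModuleEnd (S := ℚ) (K := Qb) P.freyCurve P.p))) = ⊤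

/-! ### the residue field of an eigencharacter -/

/-- **the residue field of the eigencharacter of `f` modulo `𝔪`**: a field `D` of characteristic `p`,
a surjection `θ` of the Hecke algebra onto `D` and an embedding `j : D → ℤ̄/𝔪` with
`j ∘ θ = (mod 𝔪) ∘ χ_f`. -/
theorem exists_residue_field {L : ℕ} [NeZero L] {f : CuspForm (Gamma0 L) 2}
    (hf : f.IsNormalizedEigenform) (S : Set ℕ) {𝔪 : Ideal Zbar} (h𝔪 : 𝔪.IsMaximal)
    (p : ℕ) [hp : Fact p.Prime] (hp𝔪 : (p : Zbar) ∈ 𝔪) :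
    ∃ (D : Type) (_ : Field D) (_ : CharP D p) (θ : ↥(heckeAlgebra L 2 S) →+* D)
      (j : D →+* Zbar ⧸ 𝔪), Function.Surjective θ ∧
      ∀ r, j (θ r) = Ideal.Quotient.mk 𝔪 (chiG hf S r) := by
  classical
  haveI := h𝔪
  set θ₀ : ↥(heckeAlgebra L 2 S) →+* Zbar ⧸ 𝔪 := (Ideal.Quotient.mk 𝔪).comp (chiG hf S) with hθ₀
  set I : Ideal ↥(heckeAlgebra L 2 S) := RingHom.ker θ₀ with hI
  haveI hprime : I.IsPrime := RingHom.ker_isPrime θ₀
  have hpI : ((p : ℕ) : ↥(heckeAlgebra L 2 S)) ∈ I := by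
    rw [hI, RingHom.mem_ker, map_natCast, ← map_natCast (Ideal.Quotient.mk 𝔪),
      Ideal.Quotient.eq_zero_iff_mem]
    exact hp𝔪
  have hp0 : ((p : ℕ) : ↥(heckeAlgebra L 2 S) ⧸ I) = 0 := by
    rw [← map_natCast (Ideal.Quotient.mk I), Ideal.Quotient.eq_zero_iff_mem]
    exact hpI
  haveI : Module.Finite ℤ ↥(heckeAlgebra L 2 S) := Fermat.Agent.S22.result L 2 S
  haveI : Module.Finite ℤ (↥(heckeAlgebra L 2 S) ⧸ I) :=
    Module.Finite.of_surjective (Ideal.Quotient.mkₐ ℤ I).toLinearMap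
      (Ideal.Quotient.mkₐ_surjective ℤ I)
  haveI : AddGroup.FG (↥(heckeAlgebra L 2 S) ⧸ I) := Module.Finite.iff_addGroup_fg.mp inferInstance
  haveI : Finite (↥(heckeAlgebra L 2 S) ⧸ I) := by
    refine AddCommGroup.finite_of_fg_isAddTorsion _ fun x => ?_
    rw [isOfFinAddOrder_iff_nsmul_eq_zero]
    refine ⟨p, hp.out.pos, ?_⟩
    rw [nsmul_eq_mul, hp0, zero_mul]
  haveI hmax : I.IsMaximal :=
    Ideal.Quotient.maximal_of_isField I (Finite.isField_of_domain _)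
  letI : Field (↥(heckeAlgebra L 2 S) ⧸ I) := Ideal.Quotient.field I
  refine ⟨↥(heckeAlgebra L 2 S) ⧸ I, inferInstance, ?_, Ideal.Quotient.mk I,
    RingHom.kerLift θ₀, Ideal.Quotient.mk_surjective, fun r => ?_⟩
  · exact (CharP.charP_iff_prime_eq_zero hp.out).mpr hp0
  · exact RingHom.kerLift_mk θ₀ r

/-! ### EMBED44 -/

/-- the discriminant of an integral model of the Frey curve is nonzero. -/
theorem model_Δ_ne_zero (P : FreyPackage) {W : WeierstrassCurve ℤ}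
    (hW : W.IsIntegralModelOf P.freyCurve) : W.Δ ≠ 0 := by
  haveI := Fermat.Agent.T1B.NonEis2.freyCurve_isElliptic P
  obtain ⟨C, hC⟩ := hW
  have hell : (W.map (Int.castRingHom ℚ)).IsElliptic := by rw [← hC]; infer_instance
  intro h0
  have h1 : (W.map (Int.castRingHom ℚ)).Δ = 0 := by
    rw [WeierstrassCurve.map_Δ, h0, _root_.map_zero]
  exact (W.map (Int.castRingHom ℚ)).isUnit_Δ.ne_zero h1

/-- **EMBED44** from the two `E[p]`-side inputs. -/
theorem embed44 (hE1 : ECharpoly) (hE2 : ESpan) : EMBED44 heckeUFamily := by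
  intro P m _ hyp f W 𝔪 α hf hW h𝔪 hp𝔪 hcong hα
  classical
  haveI : Fact P.p.Prime := ⟨P.pp⟩
  haveI := Fermat.Agent.T1B.NonEis2.freyCurve_isElliptic P
  have hp5 := P.hp5
  have hp2 : P.p ≠ 2 := by omega
  have h2L : 2 ∣ 4 * m * P.p := ⟨2 * m * P.p, by ring⟩
  have hpL : P.p ∣ 4 * m * P.p := dvd_mul_left _ _
  have hΔW : W.Δ ≠ 0 := model_Δ_ne_zero P hW
  -- the excluded primes
  obtain ⟨S, hS⟩ : ∃ S : Finset ℕ, S = insert P.p (W.Δ.natAbs.primeFactors.erase 2) := ⟨_, rfl⟩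
  have hpS : P.p ∈ S := by rw [hS]; exact Finset.mem_insert_self _ _
  have h2S : (2 : ℕ) ∉ (↑S : Set ℕ) := by
    rw [Finset.mem_coe, hS, Finset.mem_insert, not_or]
    exact ⟨fun h => hp2 h.symm, fun h => (Finset.mem_erase.mp h).1 rfl⟩
  have hgoodS : ∀ ℓ : ℕ, ℓ.Prime → ¬ ℓ ∣ 4 * m * P.p → ℓ ∉ (↑S : Set ℕ) →
      W.IsGoodPrimeFor ℓ ∧ ℓ ≠ P.p := by
    intro ℓ hℓ hℓL hℓS
    rw [Finset.mem_coe, hS, Finset.mem_insert, not_or] at hℓS
    refine ⟨fun hdvd => hℓS.2 ?_, hℓS.1⟩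
    rw [Finset.mem_erase]
    refine ⟨fun h => hℓL (h ▸ h2L), ?_⟩
    rw [Nat.mem_primeFactors]
    exact ⟨hℓ, Int.natCast_dvd.mp hdvd, Int.natAbs_ne_zero.mpr hΔW⟩
  have hSgood : ∀ ℓ : ℕ, ℓ.Prime → W.IsGoodPrimeFor ℓ → ¬ ℓ ∣ 4 * m * P.p → ℓ ∉ (↑S : Set ℕ) := by
    intro ℓ hℓ hgood hℓL
    rw [Finset.mem_coe, hS, Finset.mem_insert, not_or]
    refine ⟨fun h => hℓL (h ▸ hpL), fun h => hgood ?_⟩
    have := (Nat.mem_primeFactors.mp (Finset.mem_erase.mp h).2).2.1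
    exact Int.natCast_dvd.mpr this
  -- the residue field of the eigencharacter
  obtain ⟨D, _, _, θ, j, hθ, hj⟩ := exists_residue_field hf (↑S : Set ℕ) h𝔪 P.p hp𝔪
  letI : Algebra (ZMod P.p) D := ZMod.algebra D P.p
  -- `E[p]`
  have hΔE : (P.freyCurve⁄Qb).Δ ≠ 0 := (P.freyCurve.map (algebraMap ℚ Qb)).isUnit_Δ.ne_zero
  have hT : Module.finrank (ZMod P.p) (FreyTors P) = 2 :=
    Fermat.Agent.DivPoly.CardEq29.finrank_torsionBy_eq_two hΔE hp2
  haveI : Module.Finite (ZMod P.p) (FreyTors P) := Module.finite_of_finrank_pos (by rw [hT]; norm_num)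
  -- the eigenvalues
  have hθa : ∀ (ℓ : ℕ) (hℓ : ℓ.Prime) (hℓN : ¬ ℓ ∣ 4 * m * P.p) (hℓS : ℓ ∉ (↑S : Set ℕ)),
      θ (heckeAlgebra.T hℓ hℓN hℓS) = ((W.apOfModel ℓ : ℤ) : D) := by
    intro ℓ hℓ hℓN hℓS
    obtain ⟨hgood, hℓp⟩ := hgoodS ℓ hℓ hℓN hℓS
    obtain ⟨b, hb, hbm⟩ := hcong ℓ hℓ hgood hℓN hℓp
    apply j.injective
    rw [hj, map_intCast, ← map_intCast (Ideal.Quotient.mk 𝔪), Ideal.Quotient.eq]
    have e : chiG hf (↑S : Set ℕ) (heckeAlgebra.T hℓ hℓN hℓS) = b :=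
      Subtype.ext ((coe_chiG_T hf hℓ hℓN hℓS).trans hb.symm)
    rw [e]
    exact hbm
  have hjU : j (θ (heckeAlgebra.U Nat.prime_two h2L h2S)) = Ideal.Quotient.mk 𝔪 α := by
    rw [hj]
    congr 1
    apply Subtype.ext
    rw [coe_chiG, chiC_U hf Nat.prime_two h2L h2S, hα]
  obtain ⟨ι, hinj, heq, hp0, hTℓ, hUq⟩ := Fermat.Agent.T1B.GBLR83.Occ.exists_embedding
    (D := D) (T := FreyTors P) S hpS θ hθ
    (galoisRepModuleEnd (S := ℚ) (K := Qb) P.freyCurve P.p) hT hp2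
    (hE2 P hyp.p_dvd hyp.irr D) (Fermat.Agent.ES.J7.S42ofS29_4.freyLevel P)
    (fun ℓ => W.apOfModel ℓ) hθa
    (fun ℓ hℓ hℓN hℓS A hA φ hφ =>
      hE1 P W hW hyp.irr ℓ hℓ (hgoodS ℓ hℓ hℓN hℓS).1 (hgoodS ℓ hℓ hℓN hℓS).2 A hA φ hφ)
  refine ⟨ι, hinj, fun σ x => heq σ x, fun x => ⟨hp0 x, ?_, ?_⟩⟩
  · rintro ℓ ⟨hℓ, hgood, hℓL⟩
    exact hTℓ ℓ.1 ℓ.2 hℓL (hSgood ℓ.1 hℓ hgood hℓL) x
  · intro c hc
    rw [heckeUFamily_apply_of_dvd (4 * m * P.p) h2L]
    refine hUq 2 Nat.prime_two h2L h2S c ?_ x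
    apply j.injective
    have h1 : j (Polynomial.aeval (θ (heckeAlgebra.U Nat.prime_two h2L h2S)) c) =
        Polynomial.aeval (j (θ (heckeAlgebra.U Nat.prime_two h2L h2S))) c :=
      (Polynomial.aeval_algHom_apply j.toIntAlgHom _ c).symm
    have h2 : Polynomial.aeval (Ideal.Quotient.mk 𝔪 α) c =
        Ideal.Quotient.mk 𝔪 (Polynomial.aeval α c) :=
      Polynomial.aeval_algHom_apply (Ideal.Quotient.mk 𝔪).toIntAlgHom α c
    rw [_root_.map_zero, h1, hjU, h2, Ideal.Quotient.eq_zero_iff_mem]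
    exact hc

end Fermat.Agent.T1B.GBLR83.Embed44
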