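/-
T1B / G2 G-BLR (helper83), Stage 2, file 5: **EMBED44, unconditional.**

`embed44_heckeUFamily : EMBED44 KumU48.heckeUFamily` and `embed44_uTwo : EMBED44 Degen21.UFam.uTwo`
(`Top68/Global.lean`): for a Frey package `P`, `m` odd squarefree prime to `p` with `E[p]` irreducible,
and a normalised eigenform `f` of level `4mp` congruent to the Frey curve modulo `𝔪 ∋ p` with
`U_2`-eigenvalue `α`, there is an injective `G_ℚ`-equivariant map `E[p](ℚ̄) → J₀(4mp)(ℚ̄)[p]` whose image
is killed by `T_ℓ − a_ℓ(W)` (good `ℓ ∤ 4mp`) and by `c(U_2)` for all `c ∈ ℤ[X]` with `c(α) ∈ 𝔪`.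

Assembly of `GBLR83/Embed44.embed44` (Boston–Lenstra–Ribet for the full Hecke algebra) with the
`E[p]`-side inputs of helper48 (`Embed48/Frey`: characteristic polynomial of Frobenius, span of Galois;
determinant trick of helper69) and the base change of helper78 (`Embed78/BaseChange`).
-/
import Mathlib
import Fermat.Agent.T1B.GBLR83.Embed44
import Fermat.Agent.T1B.Embed48.Frey
import Fermat.Agent.T1B.Embed78.BaseChange
import Fermat.Agent.T1B.KumU78.Bridge
import Fermat.Agent.T1B.Top68.UCongr
import Fermat.Agent.S06.FreyModel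

set_option autoImplicit false
set_option linter.unusedSectionVars false
set_option linter.style.haveILetI false

noncomputable section

namespace Fermat.Agent.T1B.GBLR83.Final

open Fermat.Agent.T1B.GBLR83.Embed44 Fermat.Agent.T1B.Embed48.Frey Fermat.Agent.T1B.Top68
open Fermat.Agent.T1B.KumU48

/-- **E-side input 1** (helper48, helper69). -/
theorem eCharpoly : ECharpoly := by
  intro P _ W hW hirr ℓ hℓ hgood hℓp A hA φ hφ
  haveI := module_finite P.freyCurve (p := P.p) (frey_p_ne_two P)
  exact charpoly_frobenius (frey_disc_ne_zero P) hW (frey_p_ne_two P) hirr hℓ hgood hℓp A hA φ hφ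

/-- **E-side input 2** (helper48, helper78). -/
theorem eSpan : ESpan := by
  intro P _ _ hirr D _ _
  haveI := module_finite P.freyCurve (p := P.p) (frey_p_ne_two P)
  have h := span_eq_top (frey_disc_ne_zero P)
    (Fermat.Agent.S06.FreyModel.freyCurveInt_isIntegralModelOf P) (frey_p_ne_two P) hirr
  exact Fermat.Agent.T1B.Embed78.BaseChange.span_bc D (ρE P.freyCurve P.p) h

/-- **EMBED44** for the classical family `U_2 = β_* α^*` (`KumU48.heckeUFamily`). -/
theorem embed44_heckeUFamily : EMBED44 heckeUFamily := embed44 eCharpoly eSpan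

/-- **EMBED44** for `Degen21.UFam.uTwo` (the family of the chain `TOP44`). -/
theorem embed44_uTwo : EMBED44 Fermat.Agent.T1B.Degen21.UFam.uTwo :=
  embed44_congr (fun N' _ h2 => (Fermat.Agent.T1B.KumU78.uTwo_eq_heckeUFamily (N := N') h2).symm)
    embed44_heckeUFamily

end Fermat.Agent.T1B.GBLR83.Final
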