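/-
T1B / G2 G-BLR (helper83), commutative algebra leaves (Mathlib only).

* `smul_top_ne_top_of_faithful` : Nakayama for a faithful finitely generated module: `I ≠ ⊤ ⇒ I M ≠ M`.
* `smul_top_quotient_ne_top`    : the same conclusion passes to a quotient `M ⧸ J M` with `J ≤ I`.
* `exists_ne_zero_forall_smul_eq_zero` : an Artinian + Noetherian module `Y` with `I Y ≠ Y` has a
  nonzero element killed by `I` (the `I`-socle is nonzero).

Together: if the Hecke algebra acts faithfully on the Tate module `M`, every maximal ideal containing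
`p` has a nonzero eigenvector in `M / p M`.
-/
import Mathlib

set_option autoImplicit false

namespace Fermat.Agent.T1B.GBLR83.Socle

variable {R : Type*} [CommRing R] {M : Type*} [AddCommGroup M] [Module R M]

/-- **Nakayama** for a faithful finitely generated module. -/
theorem smul_top_ne_top_of_faithful [Module.Finite R M]
    (hfaith : ∀ r : R, (∀ m : M, r • m = 0) → r = 0) (I : Ideal R) (hI : I ≠ ⊤) :
    I • (⊤ : Submodule R M) ≠ ⊤ := by
  intro h
  obtain ⟨r, hr, hr0⟩ := Submodule.exists_sub_one_mem_and_smul_eq_zero_of_fg_of_le_smul I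
    (⊤ : Submodule R M) Module.Finite.fg_top (by rw [h])
  have hr' : r = 0 := hfaith r fun m => hr0 m Submodule.mem_top
  rw [hr', zero_sub] at hr
  apply hI
  rw [Ideal.eq_top_iff_one]
  have := I.neg_mem hr
  rwa [neg_neg] at this

/-- passing to the quotient by `J M`, `J ≤ I`. -/
theorem smul_top_quotient_ne_top {I J : Ideal R} (hJI : J ≤ I)
    (h : I • (⊤ : Submodule R M) ≠ ⊤) :
    I • (⊤ : Submodule R (M ⧸ (J • (⊤ : Submodule R M)))) ≠ ⊤ := by
  intro htop
  apply h
  rw [eq_top_iff]
  intro m _
  have h1 : (Submodule.Quotient.mk m : M ⧸ (J • (⊤ : Submodule R M))) ∈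
      I • (⊤ : Submodule R (M ⧸ (J • (⊤ : Submodule R M)))) := by
    rw [htop]
    exact Submodule.mem_top
  have h2 : I • (⊤ : Submodule R (M ⧸ (J • (⊤ : Submodule R M)))) =
      (I • (⊤ : Submodule R M)).map (Submodule.mkQ (J • (⊤ : Submodule R M))) := by
    rw [Submodule.map_smul'', Submodule.map_top, Submodule.range_mkQ]
  rw [h2] at h1
  obtain ⟨m', hm', hmm'⟩ := h1
  have h3 : m' - m ∈ J • (⊤ : Submodule R M) := by
    rw [← Submodule.Quotient.eq]
    exact hmm'
  have h4 : m' - m ∈ I • (⊤ : Submodule R M) := Submodule.smul_mono_left hJI h3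
  have := Submodule.sub_mem _ hm' h4
  rwa [sub_sub_cancel] at this

/-- **the `I`-socle is nonzero**: an Artinian and Noetherian module `Y` with `I Y ≠ Y` contains a
nonzero element killed by `I`. -/
theorem exists_ne_zero_forall_smul_eq_zero {Y : Type*} [AddCommGroup Y] [Module R Y]
    [IsArtinian R Y] [IsNoetherian R Y] (I : Ideal R)
    (h : I • (⊤ : Submodule R Y) ≠ ⊤) :
    ∃ y : Y, y ≠ 0 ∧ ∀ r ∈ I, r • y = 0 := by
  by_contra hcon
  have hcon' : ∀ y : Y, (∀ r ∈ I, r • y = 0) → y = 0 := by
    intro y hy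
    by_contra hy0
    exact hcon ⟨y, hy0, hy⟩
  -- step 1: no element is killed by a power of `I`
  have hpow : ∀ (n : ℕ) (y : Y), (∀ r ∈ I ^ n, r • y = 0) → y = 0 := by
    intro n
    induction n with
    | zero =>
      intro y hy
      have h1 : (1 : R) ∈ I ^ 0 := by
        rw [pow_zero, Ideal.one_eq_top]
        exact Submodule.mem_top
      have := hy 1 h1
      rwa [one_smul] at this
    | succ n ih =>
      intro y hy
      apply ih
      intro c hc
      apply hcon'
      intro r hr
      rw [smul_smul]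
      apply hy
      rw [pow_succ']
      exact Ideal.mul_mem_mul hr hc
  -- step 2: the chain `I ^ n Y` stabilises
  let f : ℕ →o (Submodule R Y)ᵒᵈ :=
    { toFun := fun n => OrderDual.toDual (I ^ n • (⊤ : Submodule R Y))
      monotone' := by
        intro a b hab
        show I ^ b • (⊤ : Submodule R Y) ≤ I ^ a • (⊤ : Submodule R Y)
        exact Submodule.smul_mono_left (Ideal.pow_le_pow_right hab) }
  obtain ⟨n, hn⟩ := IsArtinian.monotone_stabilizes f
  have hZ : I ^ n • (⊤ : Submodule R Y) = I ^ (n + 1) • (⊤ : Submodule R Y) := by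
    have := hn (n + 1) (Nat.le_succ n)
    exact congrArg OrderDual.ofDual this
  set Z : Submodule R Y := I ^ n • (⊤ : Submodule R Y) with hZdef
  have hZle : Z ≤ I • Z := by
    rw [hZdef, ← Submodule.mul_smul, ← pow_succ', ← hZ]
  obtain ⟨r, hr, hr0⟩ := Submodule.exists_sub_one_mem_and_smul_eq_zero_of_fg_of_le_smul I Z
    (IsNoetherian.noetherian Z) hZle
  -- step 3: `r` kills everything
  have hrY : ∀ y : Y, r • y = 0 := by
    intro y
    apply hpow n
    intro c hc
    rw [smul_comm]
    exact hr0 _ (Submodule.smul_mem_smul hc Submodule.mem_top)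
  apply h
  rw [eq_top_iff]
  intro y _
  have h1 : y = (1 - r) • y := by rw [sub_smul, one_smul, hrY, sub_zero]
  rw [h1]
  have h2 : 1 - r ∈ I := by
    have := I.neg_mem hr
    rwa [neg_sub] at this
  exact Submodule.smul_mem_smul h2 Submodule.mem_top

end Fermat.Agent.T1B.GBLR83.Socle
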