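/-
T1B / G2 G-BLR (helper83), Stage 2: **a two-dimensional representation containing a split
semisimple element with distinct eigenvalues, neither of whose eigenlines is stable, spans the
endomorphism algebra** (elementary replacement of Burnside's theorem; no algebraic closure).

* `matrix_subalgebra_eq_top` : a subalgebra of `M₂(D)` containing `diag(a, a')` (`a ≠ a'`), a matrix
  with nonzero `(1,0)`-entry and a matrix with nonzero `(0,1)`-entry is everything;
* `span_range_eq_top` : the representation form.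
-/
import Mathlib

set_option autoImplicit false

namespace Fermat.Agent.T1B.GBLR83.SpanTwo

open Module Matrix

variable {D : Type*} [Field D]

/-- a subalgebra of `M₂(D)` containing `diag(a, a')`, `a ≠ a'`, and matrices with nonzero
off-diagonal entries (one for each position) is the whole algebra. -/
theorem matrix_subalgebra_eq_top (S : Subalgebra D (Matrix (Fin 2) (Fin 2) D)) {a a' : D}
    (haa' : a ≠ a') {M₀ M M' : Matrix (Fin 2) (Fin 2) D}
    (hM₀ : M₀ ∈ S) (h00 : M₀ 0 0 = a) (h01 : M₀ 0 1 = 0) (h10 : M₀ 1 0 = 0) (h11 : M₀ 1 1 = a')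
    (hM : M ∈ S) (hM10 : M 1 0 ≠ 0) (hM' : M' ∈ S) (hM'01 : M' 0 1 ≠ 0) : S = ⊤ := by
  have hd : a - a' ≠ 0 := sub_ne_zero.mpr haa'
  -- the idempotents
  have hE11 : (!![1, 0; 0, 0] : Matrix (Fin 2) (Fin 2) D) ∈ S := by
    have h : (a - a')⁻¹ • (M₀ - a' • (1 : Matrix (Fin 2) (Fin 2) D)) ∈ S :=
      S.smul_mem (S.sub_mem hM₀ (S.smul_mem S.one_mem _)) _
    convert h using 1
    ext i j
    fin_cases i <;> fin_cases j <;>
      simp [h00, h01, h10, h11, inv_mul_cancel₀ hd]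
  have hE22 : (!![0, 0; 0, 1] : Matrix (Fin 2) (Fin 2) D) ∈ S := by
    have h : (1 : Matrix (Fin 2) (Fin 2) D) - !![1, 0; 0, 0] ∈ S := S.sub_mem S.one_mem hE11
    convert h using 1
    ext i j
    fin_cases i <;> fin_cases j <;> simp
  have hE21 : (!![0, 0; 1, 0] : Matrix (Fin 2) (Fin 2) D) ∈ S := by
    have h : (M 1 0)⁻¹ • ((!![0, 0; 0, 1] : Matrix (Fin 2) (Fin 2) D) * M * !![1, 0; 0, 0]) ∈ S :=
      S.smul_mem (S.mul_mem (S.mul_mem hE22 hM) hE11) _
    have hprod : (!![0, 0; 0, 1] : Matrix (Fin 2) (Fin 2) D) * M * !![1, 0; 0, 0]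
        = !![0, 0; M 1 0, 0] := by
      ext i j
      simp only [Matrix.mul_apply, Fin.sum_univ_two]
      fin_cases i <;> fin_cases j <;> simp
    rw [hprod] at h
    convert h using 1
    ext i j
    fin_cases i <;> fin_cases j <;> simp [inv_mul_cancel₀ hM10]
  have hE12 : (!![0, 1; 0, 0] : Matrix (Fin 2) (Fin 2) D) ∈ S := by
    have h : (M' 0 1)⁻¹ • ((!![1, 0; 0, 0] : Matrix (Fin 2) (Fin 2) D) * M' * !![0, 0; 0, 1]) ∈ S :=
      S.smul_mem (S.mul_mem (S.mul_mem hE11 hM') hE22) _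
    have hprod : (!![1, 0; 0, 0] : Matrix (Fin 2) (Fin 2) D) * M' * !![0, 0; 0, 1]
        = !![0, M' 0 1; 0, 0] := by
      ext i j
      simp only [Matrix.mul_apply, Fin.sum_univ_two]
      fin_cases i <;> fin_cases j <;> simp
    rw [hprod] at h
    convert h using 1
    ext i j
    fin_cases i <;> fin_cases j <;> simp [inv_mul_cancel₀ hM'01]
  rw [eq_top_iff]
  intro X _
  have hX : X = X 0 0 • (!![1, 0; 0, 0] : Matrix (Fin 2) (Fin 2) D) + X 0 1 • !![0, 1; 0, 0]
      + X 1 0 • !![0, 0; 1, 0] + X 1 1 • !![0, 0; 0, 1] := by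
    ext i j
    fin_cases i <;> fin_cases j <;> simp
  rw [hX]
  exact S.add_mem (S.add_mem (S.add_mem (S.smul_mem hE11 _) (S.smul_mem hE12 _))
    (S.smul_mem hE21 _)) (S.smul_mem hE22 _)

variable {V : Type*} [AddCommGroup V] [Module D V] {G : Type*} [Monoid G]

/-- the span of the image of a monoid representation is (the module of) a subalgebra. -/
theorem span_range_eq_adjoin (ρ : G →* End D V) :
    Submodule.span D (Set.range ρ) = Subalgebra.toSubmodule (Algebra.adjoin D (Set.range ρ)) := by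
  have h := Algebra.adjoin_eq_span D (Set.range ρ)
  have h2 : Submonoid.closure (Set.range ρ) = MonoidHom.mrange ρ := by
    rw [← MonoidHom.coe_mrange, Submonoid.closure_eq]
  rw [h, h2, MonoidHom.coe_mrange]

/-- **a two-dimensional representation with a split element with distinct eigenvalues, neither of
whose eigenlines is stable, spans the endomorphism algebra.** -/
theorem span_range_eq_top (b : Basis (Fin 2) D V) (ρ : G →* End D V) (g₀ : G) {a a' : D}
    (haa' : a ≠ a') (h0 : ρ g₀ (b 0) = a • b 0) (h1 : ρ g₀ (b 1) = a' • b 1)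
    (h10 : ∃ h : G, b.repr (ρ h (b 0)) 1 ≠ 0) (h01 : ∃ h : G, b.repr (ρ h (b 1)) 0 ≠ 0) :
    Submodule.span D (Set.range ρ) = ⊤ := by
  classical
  obtain ⟨h, hh⟩ := h10
  obtain ⟨h', hh'⟩ := h01
  obtain ⟨e, he⟩ : ∃ e : End D V ≃ₐ[D] Matrix (Fin 2) (Fin 2) D,
      ∀ (X : End D V) (i j : Fin 2), e X i j = b.repr (X (b j)) i :=
    ⟨LinearMap.toMatrixAlgEquiv b, fun X i j => by rw [LinearMap.toMatrixAlgEquiv_apply]⟩
  obtain ⟨S, hS⟩ : ∃ S : Subalgebra D (Matrix (Fin 2) (Fin 2) D),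
      S = (Algebra.adjoin D (Set.range ρ)).map (e : End D V →ₐ[D] _) := ⟨_, rfl⟩
  have hmem : ∀ g : G, e (ρ g) ∈ S := fun g => by
    rw [hS]
    exact ⟨ρ g, Algebra.subset_adjoin ⟨g, rfl⟩, rfl⟩
  have e00 : e (ρ g₀) 0 0 = a := by rw [he, h0]; simp
  have e01 : e (ρ g₀) 0 1 = 0 := by rw [he, h1]; simp
  have e10 : e (ρ g₀) 1 0 = 0 := by rw [he, h0]; simp
  have e11 : e (ρ g₀) 1 1 = a' := by rw [he, h1]; simp
  have eh : e (ρ h) 1 0 ≠ 0 := by rw [he]; exact hh
  have eh' : e (ρ h') 0 1 ≠ 0 := by rw [he]; exact hh'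
  have htop : S = ⊤ :=
    matrix_subalgebra_eq_top S haa' (hmem g₀) e00 e01 e10 e11 (hmem h) eh (hmem h') eh'
  rw [span_range_eq_adjoin, eq_top_iff]
  intro X _
  have hX : e X ∈ S := by rw [htop]; exact Algebra.mem_top
  rw [hS] at hX
  obtain ⟨Y, hY, hYX⟩ := hX
  have : Y = X := e.injective hYX
  rw [← this]
  exact hY

end Fermat.Agent.T1B.GBLR83.SpanTwo
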